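import Fermat.Agent.Root.TateLift.Basis
import Fermat.Agent.Conductor.Quadratic

/-!
# Frobenius on `E[pⁿ]`

The trace is pinned at a higher level, where Frobenius cannot be a scalar.
-/

set_option autoImplicit false

noncomputable section

open WeierstrassCurve WeierstrassCurve.Affine.Point Fermat.Agent.Isogeny
open scoped WeierstrassCurve.Affine

namespace Fermat.Agent.Root.TateLift

local notation "ℚbar" => AlgebraicClosure ℚ
local notation "Γ" => AlgebraicClosure ℚ ≃ₐ[ℚ] AlgebraicClosure ℚ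

variable {W : WeierstrassCurve ℤ} {p : ℕ} [Fact p.Prime] {ℓ : ℕ} {A : ValuationSubring ℚbar} {σ : Γ}

/-- If a Frobenius element is the scalar `c` on `E[p ^ k]` then `p ^ (2 k) ∣ c² - a c + ℓ`. -/
theorem dvd_of_scalar (hℓ : ℓ.Prime) (hgood : W.IsGoodPrimeFor ℓ) (hℓp : ℓ ≠ p)
    (hA : A.LiesOverPrime ℓ) (hσ : A.IsFrobeniusAt σ ℓ) {k : ℕ} {c : ℤ}
    (hc : ∀ R : EP W, p ^ k • R = 0 → σ • R = c • R) :
    ((p ^ k) ^ 2 : ℤ) ∣ c ^ 2 - W.apOfModel ℓ * c + ℓ := by
  classical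
  have hΔ : W.Δ ≠ 0 := fun h => hgood (by rw [h]; exact dvd_zero _)
  set π := IsLocalRing.residue A
  have : IsAlgClosed (IsLocalRing.ResidueField A) := Fermat.Agent.Gal.isAlgClosed_residueField A
  have : Fact ℓ.Prime := ⟨hℓ⟩
  have hchar := EC.Reduction.charP_of_liesOverPrime π hℓ hA
  have hΔ₀ := EC.Reduction.Δ_intModel_ne_zero π hℓ hA hgood
  let f := ZMod.castHom (dvd_refl ℓ) (IsLocalRing.ResidueField A)
  have hW₀ : (W.reductionMod ℓ).map f =
      W.map (Int.castRingHom (IsLocalRing.ResidueField A)) := by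
    rw [reductionMod, WeierstrassCurve.map_map, RingHom.eq_intCast' (f.comp _)]
  have hell : ((W.reductionMod ℓ).map f).IsElliptic := ⟨by
    rw [isUnit_iff_ne_zero, hW₀]; exact hΔ₀⟩
  have hred := EC.Reduction.reduces_intModel (K := ℚbar) W π
  rw [← hW₀] at hred hΔ₀
  have hnk : ((p ^ k : ℕ) : IsLocalRing.ResidueField A) ≠ 0 :=
    EC.Reduction.natCast_ne_zero_of_liesOverPrime π hℓ hA fun hd =>
      hℓp ((Nat.prime_dvd_prime_iff_eq hℓ Fact.out).mp (hℓ.dvd_of_dvd_pow hd))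
  have hW := map_iterateFrobenius_zmod (W.reductionMod ℓ) f
  let r := EC.Reduction.redGood hred hΔ₀
  have hf : ∀ Q : EP W, r (σ • Q) = frobPt ((W.reductionMod ℓ).map f) ℓ 1 hW (r Q) := by
    intro Q
    change EC.Reduction.red π _ (σ • Q) = frobPt _ ℓ 1 hW (EC.Reduction.red π _ Q)
    have hm := EC.Reduction.redTo_red hred hΔ₀ Q
    generalize EC.Reduction.red π ((W.reductionMod ℓ).map f) Q = R at hm ⊢
    rcases Q with _ | ⟨x, y, hQ⟩
    · obtain rfl : R = 0 := EC.Reduction.RedTo.unique hm EC.Reduction.RedTo.zero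
      rw [← Affine.Point.zero_def, _root_.map_zero]
      change EC.Reduction.red π _ (0 : EP W) = 0
      exact EC.Reduction.red_eq EC.Reduction.RedTo.zero
    rcases hm with ⟨hx, rfl⟩ | ⟨x₀, y₀, h₀, hx, hy, rfl⟩
    · rw [_root_.map_zero]
      exact EC.Reduction.red_eq
        (EC.Reduction.redTo_smul_zero hσ.mem_decompositionSubgroup
          (EC.Reduction.RedTo.of_notMem hx))
    · simp only [frobPt, endoPoint_some, iterateFrobenius_def, pow_one]
      exact EC.Reduction.red_eq (EC.Reduction.redTo_smul_of_isFrobeniusAt hσ hx hy)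
  let j := (Submodule.subtype _).toAddMonoidHom.comp (EC.Reduction.redTorsion hred hΔ₀ (p ^ k))
  have hj : Function.Injective j :=
    Subtype.val_injective.comp (EC.Reduction.redTorsion_injective hred hΔ₀ hnk)
  have hcard : Nat.card j.range = (p ^ k) ^ 2 := by
    rw [← Nat.card_congr (AddMonoidHom.ofInjective hj).toEquiv]
    exact natCard_TE hΔ (pow_ne_zero _ (Fact.out : p.Prime).ne_zero)
  have hdvd := card_dvd_of_le_ker ((W.reductionMod ℓ).map f) ℓ 1 hW one_ne_zero c j.range (by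
    rintro _ ⟨R, rfl⟩
    change frobPt _ ℓ 1 hW (r (R : EP W)) = c • r (R : EP W)
    rw [← hf, hc (R : EP W) (mem_TE.1 R.2), map_zsmul])
  rw [hcard, frobTrace_eq_traceOfFrobenius, pow_one] at hdvd
  exact_mod_cast hdvd

theorem eq_zero_of_mul_eq_zero_of_not_dvd {N k n : ℕ} (hN : N = n + k) {u z : ZMod (p ^ N)}
    (h : u * z = 0) (hz : ¬ p ^ k ∣ z.val) : p ^ n ∣ u.val := by
  subst hN
  have hz0 : z.val ≠ 0 := fun h0 => hz (h0 ▸ dvd_zero _)
  obtain ⟨i, z', hz', hzi⟩ := Nat.exists_eq_pow_mul_and_not_dvd hz0 p (Fact.out : p.Prime).ne_one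
  have hik : i < k := by
    by_contra hge
    exact hz (hzi ▸ (pow_dvd_pow p (not_lt.1 hge)).mul_right z')
  rw [← ZMod.natCast_zmod_val u, ← ZMod.natCast_zmod_val z, ← Nat.cast_mul,
    ZMod.natCast_eq_zero_iff, hzi, ← mul_assoc] at h
  have hcop : Nat.Coprime (p ^ (n + k)) z' :=
    Nat.Coprime.pow_left _ ((Fact.out : p.Prime).coprime_iff_not_dvd.2 hz')
  have h' := hcop.dvd_of_dvd_mul_right h
  have h2 : p ^ (n + (k - i)) * p ^ i ∣ u.val * p ^ i := by
    rwa [← pow_add, show n + (k - i) + i = n + k by omega]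
  exact (pow_dvd_pow p (by omega : n ≤ n + (k - i))).trans
    (Nat.dvd_of_mul_dvd_mul_right (Nat.pos_of_neZero _) h2)

/-- The discriminant `a² - 4l` of a Frobenius polynomial does not vanish. -/
theorem disc_ne_zero (a : ℤ) {l : ℕ} (hl : l.Prime) : a ^ 2 - 4 * (l : ℤ) ≠ 0 := by
  intro h0
  have h4 : a.natAbs * a.natAbs = 4 * l := by
    zify
    rw [abs_mul_abs_self]
    linear_combination h0
  have h2a : 2 ∣ a.natAbs := Nat.prime_two.dvd_of_dvd_pow (n := 2) (by
    rw [sq, h4]; exact dvd_mul_of_dvd_left (by norm_num) _)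
  obtain ⟨e, he⟩ := h2a
  rw [he] at h4
  have he2 : e * e = l := by linarith
  rcases Nat.prime_mul_iff.1 (he2.symm ▸ hl) with ⟨h', h1'⟩ | ⟨h', h1'⟩ <;>
    exact Nat.not_prime_one (h1' ▸ h')

/-- The trace and determinant of Frobenius on `E[pⁿ]`. -/
theorem trace_det_frobEnd (hℓ : ℓ.Prime) (hgood : W.IsGoodPrimeFor ℓ) (hℓp : ℓ ≠ p)
    (hA : A.LiesOverPrime ℓ) (hσ : A.IsFrobeniusAt σ ℓ) {n : ℕ} (hn : 1 ≤ n)
    (b : Module.Basis (Fin 2) (ZMod (p ^ n)) (TE W (p ^ n))) :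
    (LinearMap.toMatrix b b (frobEnd W (p ^ n) σ)).trace = (W.apOfModel ℓ : ZMod (p ^ n)) ∧
    (LinearMap.toMatrix b b (frobEnd W (p ^ n) σ)).det = (ℓ : ZMod (p ^ n)) := by
  have hΔ : W.Δ ≠ 0 := fun h => hgood (by rw [h]; exact dvd_zero _)
  set a := W.apOfModel ℓ
  set k := (a ^ 2 - 4 * ℓ).natAbs + 1
  set N := n + k with hN
  obtain ⟨c, hc⟩ := exists_lift hΔ hn (Nat.le_add_right n k) b
  set φ := ZMod.castHom (Nat.pow_dvd_pow p (Nat.le_add_right n k)) (ZMod (p ^ n))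
  set F := frobEnd W (p ^ N) σ
  set Y := LinearMap.toMatrix c c F
  have hquad : F * F - (a : ZMod (p ^ N)) • F + (ℓ : ZMod (p ^ N)) • 1 = 0 := by
    refine LinearMap.ext fun R => Subtype.ext ?_
    have hℓN : ¬ ℓ ∣ p ^ N := fun hd =>
      hℓp ((Nat.prime_dvd_prime_iff_eq hℓ Fact.out).mp (hℓ.dvd_of_dvd_pow hd))
    have h := Conductor.frobenius_quadratic hℓ hgood hℓN hA hσ (nsmul_coe R)
    simp only [LinearMap.add_apply, LinearMap.sub_apply, Module.End.mul_apply,
      LinearMap.smul_apply, Module.End.one_apply, LinearMap.zero_apply, Int.cast_smul_eq_zsmul,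
      Nat.cast_smul_eq_nsmul, Submodule.coe_add, Submodule.coe_sub, Submodule.coe_smul_of_tower,
      ZeroMemClass.coe_zero, F, coe_frobEnd]
    rw [← natCast_zsmul (R : EP W) ℓ]
    exact h
  have hmat : Y * Y - (a : ZMod (p ^ N)) • Y + (ℓ : ZMod (p ^ N)) • (1 : Matrix _ _ _) = 0 := by
    have := congrArg (LinearMap.toMatrix c c) hquad
    rwa [map_add, map_sub, map_smul, map_smul, LinearMap.toMatrix_mul, LinearMap.toMatrix_one,
      _root_.map_zero] at this
  set t := Y.trace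
  set d := Y.det
  have hCH : Y * Y - t • Y + d • (1 : Matrix _ _ _) = 0 := by
    ext i j
    fin_cases i <;> fin_cases j <;>
      simp [t, d, Matrix.mul_apply, Fin.sum_univ_two, Matrix.trace_fin_two, Matrix.det_fin_two] <;>
      ring
  set u := t - (a : ZMod (p ^ N))
  have hlin : u • Y = (d - (ℓ : ZMod (p ^ N))) • (1 : Matrix _ _ _) := by
    rw [sub_smul, sub_smul]
    linear_combination (norm := abel) hmat - hCH
  have e00 : u * Y 0 0 = d - ℓ := by simpa using congrFun (congrFun hlin 0) 0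
  have e11 : u * Y 1 1 = d - ℓ := by simpa using congrFun (congrFun hlin 1) 1
  have e01 : u * Y 0 1 = 0 := by simpa using congrFun (congrFun hlin 0) 1
  have e10 : u * Y 1 0 = 0 := by simpa using congrFun (congrFun hlin 1) 0
  have hu : p ^ n ∣ u.val := by
    by_contra hu
    have h01 : p ^ k ∣ (Y 0 1).val := by
      by_contra hz; exact hu (eq_zero_of_mul_eq_zero_of_not_dvd rfl e01 hz)
    have h10 : p ^ k ∣ (Y 1 0).val := by
      by_contra hz; exact hu (eq_zero_of_mul_eq_zero_of_not_dvd rfl e10 hz)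
    have h11 : p ^ k ∣ (Y 1 1 - Y 0 0).val := by
      by_contra hz
      exact hu (eq_zero_of_mul_eq_zero_of_not_dvd rfl (by rw [mul_sub, e11, e00, sub_self]) hz)
    -- so `σ` is a scalar on `E[p ^ k]`
    set c₀ : ℕ := (Y 0 0).val
    have hdiv : ∀ i j, ∃ z : ZMod (p ^ N),
        (Y - (c₀ : ZMod (p ^ N)) • (1 : Matrix (Fin 2) (Fin 2) (ZMod (p ^ N)))) i j =
          ((p ^ k : ℕ) : ZMod (p ^ N)) * z := by
      have hd' : ∀ x : ZMod (p ^ N), p ^ k ∣ x.val →
          ∃ z : ZMod (p ^ N), x = ((p ^ k : ℕ) : ZMod (p ^ N)) * z := fun x ⟨e, he⟩ =>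
        ⟨e, by rw [← Nat.cast_mul, ← he, ZMod.natCast_zmod_val]⟩
      intro i j
      fin_cases i <;> fin_cases j <;> simp [c₀]
      exacts [⟨0, by simp⟩, by simpa using hd' _ h01, by simpa using hd' _ h10,
        by simpa using hd' _ h11]
    choose Z hZ using hdiv
    set G := Matrix.toLin c c (Matrix.of Z)
    have hscal : ∀ R : EP W, p ^ k • R = 0 → σ • R = (c₀ : ℤ) • R := by
      intro R hR
      obtain ⟨y, hy, hy'⟩ := exists_pow_nsmul_eq hΔ n hR
      rw [add_comm, ← hN] at hy'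
      set y' : TE W (p ^ N) := ⟨y, mem_TE.2 hy'⟩
      have hF : F - (c₀ : ZMod (p ^ N)) • 1 = ((p ^ k : ℕ) : ZMod (p ^ N)) • G := by
        apply (LinearMap.toMatrix c c).injective
        rw [map_sub, map_smul, map_smul, LinearMap.toMatrix_one, LinearMap.toMatrix_toLin]
        ext i j
        simpa using hZ i j
      have h0 : σ • y - c₀ • y = p ^ k • (G y' : EP W) := by
        have h := congrArg (fun R : TE W (p ^ N) => (R : EP W)) (LinearMap.congr_fun hF y')
        simp only [LinearMap.sub_apply, LinearMap.smul_apply, Module.End.one_apply,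
          Nat.cast_smul_eq_nsmul] at h
        exact h
      have h1 := congrArg (fun x : EP W => p ^ n • x) h0
      simp only [nsmul_sub, ← mul_nsmul', ← pow_add, ← hN, nsmul_coe, sub_eq_zero] at h1
      rw [mul_comm, mul_nsmul', hy,
        show p ^ n • (σ • y) = σ • R from
          (map_nsmul (DistribSMul.toAddMonoidHom (EP W) σ) _ _).symm.trans
            (congrArg (σ • ·) hy)] at h1
      rw [natCast_zsmul]
      exact h1
    have hscal' : ∀ R : EP W, p ^ k • R = 0 → σ • R = ((c₀ : ℤ) + p ^ k) • R := fun R hR => by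
      rw [hscal R hR, add_zsmul, show ((p : ℤ) ^ k) = ((p ^ k : ℕ) : ℤ) by norm_cast,
        natCast_zsmul (R) (p ^ k), hR, add_zero]
    have h1 := dvd_of_scalar hℓ hgood hℓp hA hσ hscal
    have h2 := dvd_of_scalar hℓ hgood hℓp hA hσ hscal'
    have h3 : (p : ℤ) ^ k ∣ 2 * c₀ - a := by
      have h4 := dvd_sub (dvd_sub h2 h1) (dvd_refl (((p : ℤ) ^ k) ^ 2))
      rw [show ((c₀ : ℤ) + p ^ k) ^ 2 - a * ((c₀ : ℤ) + p ^ k) + ℓ -
          ((c₀ : ℤ) ^ 2 - a * c₀ + ℓ) - ((p : ℤ) ^ k) ^ 2 = p ^ k * (2 * c₀ - a) by ring] at h4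
      exact (mul_dvd_mul_iff_left
        (pow_ne_zero k (Int.natCast_ne_zero.2 (Fact.out : p.Prime).ne_zero))).1 (by rwa [sq] at h4)
    have h5 : ((p : ℤ) ^ k) ^ 2 ∣ a ^ 2 - 4 * ℓ := by
      rw [show a ^ 2 - 4 * (ℓ : ℤ) =
        (2 * c₀ - a) ^ 2 - 4 * ((c₀ : ℤ) ^ 2 - a * c₀ + ℓ) by ring]
      exact dvd_sub (pow_dvd_pow_of_dvd h3 2) (h1.mul_left 4)
    have hD : a ^ 2 - 4 * (ℓ : ℤ) ≠ 0 := disc_ne_zero a hℓ
    have h6 := Nat.le_of_dvd (Int.natAbs_pos.2 hD) (Int.natAbs_dvd_natAbs.2 h5)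
    simp only [Int.natAbs_pow, Int.natAbs_natCast] at h6
    have h7 : k ≤ p ^ k := (Nat.lt_pow_self (Fact.out : p.Prime).one_lt).le
    have h8 : p ^ k ≤ (p ^ k) ^ 2 := Nat.le_self_pow two_ne_zero _
    omega
  have hφu : φ u = 0 := by
    rw [← ZMod.natCast_zmod_val u, map_natCast, ZMod.natCast_eq_zero_iff]
    exact hu
  have hφd : φ (d - ℓ) = 0 := by rw [← e00, map_mul, hφu, zero_mul]
  rw [map_sub, map_natCast, sub_eq_zero] at hφd
  simp only [u, map_sub, map_intCast, sub_eq_zero] at hφu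
  rw [← hc σ]
  refine ⟨?_, ?_⟩
  · rw [← hφu]
    exact (AddMonoidHom.map_trace φ.toAddMonoidHom Y).symm
  · rw [← hφd]
    exact (RingHom.map_det φ Y).symm

end Fermat.Agent.Root.TateLift
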