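import Fermat.Agent.Carayol.DivMod
import Fermat.Agent.EC.Reducible.TowerLocal
import Fermat.Agent.EC.Reducible.IntegralPoint

/-!
# An integral torsion point at a multiplicative prime

At a prime `q` of multiplicative reduction the `q`-th division polynomial does not reduce to a
constant, so some point of order `q` is off the identity component.
-/

set_option autoImplicit false

noncomputable section

open WeierstrassCurve Polynomial IsLocalRing
open scoped WeierstrassCurve.Affine

namespace Fermat.Agent.Root.TateLift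

open Fermat.Agent.Multiplicative

local notation "Qbar" => AlgebraicClosure ℚ
local notation "EQ" W => ((WeierstrassCurve.map W (Int.castRingHom ℚ))⁄(AlgebraicClosure ℚ))

/-- The coefficient at `X ^ (q - 1)` of a power of a nodal cubic. -/
theorem coeff_nodal_pow {k : Type*} [Field k] {q : ℕ} [Fact q.Prime] [CharP k q] (h2 : q ≠ 2)
    (R c : k) {f : k[X]} (hf : f = (X - C R) ^ 2 * (C 4 * (X - C R) + C c)) :
    (f ^ ((q - 1) / 2)).coeff (q - 1) = c ^ ((q - 1) / 2) := by
  have hq : q.Prime := Fact.out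
  obtain ⟨m, hm⟩ := hq.odd_of_ne_two h2
  have h3 : 3 ≤ q := by have := hq.two_le; omega
  rw [show (q - 1) / 2 = m by omega]
  set T := X - C R with hT
  set g := C 4 * ∑ i ∈ Finset.range m, (C 4 * T + C c) ^ i * C c ^ (m - 1 - i) with hg
  have hlin : (C 4 * T + C c).natDegree ≤ 1 := by rw [hT]; compute_degree
  have hdeg : g.natDegree ≤ m - 1 := by
    refine (natDegree_C_mul_le _ _).trans (natDegree_sum_le_of_forall_le _ _ fun i hi => ?_)
    refine natDegree_mul_le.trans ?_
    rw [← C_pow, natDegree_C, add_zero]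
    refine natDegree_pow_le.trans ?_
    have := Finset.mem_range.mp hi
    calc i * (C 4 * T + C c).natDegree ≤ i * 1 := Nat.mul_le_mul_left _ hlin
      _ ≤ m - 1 := by omega
  have hgeom := geom_sum₂_mul (C 4 * T + C c) (C c) m
  have hsplit : f ^ m = C (c ^ m) * T ^ (q - 1) + T ^ q * g := by
    rw [hf, mul_pow, ← pow_mul, show q - 1 = 2 * m by omega, show q = 2 * m + 1 by omega, pow_succ,
      C_pow, eq_add_of_sub_eq hgeom.symm, hg]
    ring
  have hTq : T ^ q = X ^ q - C (R ^ q) := by
    rw [hT, sub_pow_char, C_pow]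
  rw [hsplit, coeff_add, coeff_C_mul, hTq, sub_mul, coeff_sub, coeff_X_pow_mul',
    if_neg (by omega), coeff_C_mul, coeff_eq_zero_of_natDegree_lt (lt_of_le_of_lt hdeg (by omega))]
  have hlead : (T ^ (q - 1)).coeff (q - 1) = 1 := by
    have h := ((monic_X_sub_C R).pow (q - 1)).coeff_natDegree
    rwa [(monic_X_sub_C R).natDegree_pow, natDegree_X_sub_C, mul_one] at h
  rw [hlead]
  ring

/-- A polynomial over a place all of whose roots are outside it reduces to a constant. -/
theorem exists_const_of_roots_notMem {K : Type*} [Field K] {A : ValuationSubring K}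
    (s : Multiset K) (hs : ∀ a ∈ s, a ∉ A) :
    ∃ H : A[X], H.map (residue A) = 1 ∧
      (s.map fun a => X - C a).prod = C ((s.map fun a => -a).prod) * H.map A.subtype := by
  induction s using Multiset.induction_on with
  | empty => exact ⟨1, by simp, by simp⟩
  | cons a s ih =>
    obtain ⟨H, hH1, hH2⟩ := ih fun b hb => hs b (Multiset.mem_cons_of_mem hb)
    have ha := hs a (Multiset.mem_cons_self a s)
    have ha0 : a ≠ 0 := fun h => ha (h ▸ A.zero_mem)
    have hi : a⁻¹ ∈ A := (A.mem_or_inv_mem a).resolve_left ha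
    have hres : residue A ⟨a⁻¹, hi⟩ = 0 := by
      rw [IsLocalRing.residue_eq_zero_iff, IsLocalRing.mem_maximalIdeal, mem_nonunits_iff]
      intro hu
      obtain ⟨u, hu⟩ := hu
      have he : a⁻¹ * ((↑u⁻¹ : A) : K) = 1 := by
        rw [show a⁻¹ = ((u : A) : K) from (congrArg Subtype.val hu).symm]
        exact congrArg Subtype.val u.mul_inv
      exact ha ((inv_mul_eq_one₀ ha0).mp he ▸ (↑u⁻¹ : A).2)
    refine ⟨(1 - C ⟨a⁻¹, hi⟩ * X) * H, by simp [hH1, hres], ?_⟩
    have hCa : C a * C a⁻¹ = (1 : K[X]) := by rw [← C_mul, mul_inv_cancel₀ ha0, C_1]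
    simp only [Multiset.map_cons, Multiset.prod_cons, hH2, Polynomial.map_mul, Polynomial.map_sub,
      Polynomial.map_one, Polynomial.map_C, Polynomial.map_X, C_mul, C_neg]
    show _ = -C a * C _ * ((1 - C a⁻¹ * X) * _)
    linear_combination (-(C (Multiset.map (fun a => -a) s).prod * H.map A.subtype * X)) * hCa

variable {W : WeierstrassCurve ℤ} {A : ValuationSubring Qbar} {q : ℕ}

/-- The reduced two-division polynomial at a multiplicative prime. -/
theorem exists_Ψ₂Sq_nodal (h : MultAt W A q) : ∃ R c : ResidueField A, c ≠ 0 ∧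
    (W.map (Int.castRingHom (ResidueField A))).Ψ₂Sq = (X - C R) ^ 2 * (C 4 * (X - C R) + C c) := by
  set N := h.node
  have hu := N.u_ne_zero
  have hb₂ : ((W.b₂ : ℤ) : Qbar) = N.u ^ 2 - 12 * N.r := by
    have e := congrArg WeierstrassCurve.b₂ N.change_smul
    rw [variableChange_b₂] at e
    simp only [Multiplicative.NodeData.change, Units.val_inv_eq_inv_val, Units.val_mk0] at e
    rw [show (⟨1, 0, 0, 0, N.a⟩ : WeierstrassCurve Qbar).b₂ = 1 by simp [WeierstrassCurve.b₂],
      show (EQ W).b₂ = ((W.b₂ : ℤ) : Qbar) by simp [WeierstrassCurve.baseChange]] at e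
    field_simp at e
    linear_combination e
  have hb₄ : ((W.b₄ : ℤ) : Qbar) = 6 * N.r ^ 2 - N.r * N.u ^ 2 := by
    have e := congrArg WeierstrassCurve.b₄ N.change_smul
    rw [variableChange_b₄] at e
    simp only [Multiplicative.NodeData.change, Units.val_inv_eq_inv_val, Units.val_mk0] at e
    rw [show (⟨1, 0, 0, 0, N.a⟩ : WeierstrassCurve Qbar).b₄ = 0 by simp [WeierstrassCurve.b₄],
      show (EQ W).b₂ = ((W.b₂ : ℤ) : Qbar) by simp [WeierstrassCurve.baseChange],
      show (EQ W).b₄ = ((W.b₄ : ℤ) : Qbar) by simp [WeierstrassCurve.baseChange], hb₂] at e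
    field_simp at e
    linear_combination e
  have hb₆ : ((W.b₆ : ℤ) : Qbar) = 4 * N.a * N.u ^ 6 + N.r ^ 2 * N.u ^ 2 - 4 * N.r ^ 3 := by
    have e := congrArg WeierstrassCurve.b₆ N.change_smul
    rw [variableChange_b₆] at e
    simp only [Multiplicative.NodeData.change, Units.val_inv_eq_inv_val, Units.val_mk0] at e
    rw [show (⟨1, 0, 0, 0, N.a⟩ : WeierstrassCurve Qbar).b₆ = 4 * N.a by simp [WeierstrassCurve.b₆],
      show (EQ W).b₂ = ((W.b₂ : ℤ) : Qbar) by simp [WeierstrassCurve.baseChange],
      show (EQ W).b₄ = ((W.b₄ : ℤ) : Qbar) by simp [WeierstrassCurve.baseChange],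
      show (EQ W).b₆ = ((W.b₆ : ℤ) : Qbar) by simp [WeierstrassCurve.baseChange], hb₂, hb₄] at e
    field_simp at e
    linear_combination e
  have mem : ∀ x : Qbar, A.valuation x ≤ 1 → x ∈ A := fun x hx => (A.valuation_le_one_iff x).1 hx
  let r : A := ⟨N.r, mem _ N.hr⟩
  let u : A := ⟨N.u, mem _ N.hu.le⟩
  let a : A := ⟨N.a, mem _ N.ha.le⟩
  have ha : residue A a = 0 := (residue_eq_zero_iff a).2 ((A.valuation_lt_one_iff a).2 N.ha)
  have hu0 : residue A u ≠ 0 := fun h0 => by
    have := (A.valuation_lt_one_iff u).1 ((residue_eq_zero_iff u).1 h0)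
    exact this.ne N.hu
  have key : ∀ (z : ℤ) (w : A), (z : Qbar) = (w : Qbar) → (z : ResidueField A) = residue A w :=
    fun z w hzw => by
      rw [← show (z : A) = w from Subtype.ext (by simpa using hzw), map_intCast]
  have e₂ := key _ (u ^ 2 - 12 * r) (hb₂.trans (show _ = A.subtype _ by
    simp only [map_sub, map_mul, map_pow, map_ofNat]; rfl))
  have e₄ := key _ (6 * r ^ 2 - r * u ^ 2) (hb₄.trans (show _ = A.subtype _ by
    simp only [map_sub, map_mul, map_pow, map_ofNat]; rfl))
  have e₆ := key _ (4 * a * u ^ 6 + r ^ 2 * u ^ 2 - 4 * r ^ 3) (hb₆.trans (show _ = A.subtype _ by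
    simp only [map_sub, map_add, map_mul, map_pow, map_ofNat]; rfl))
  simp only [map_sub, map_add, map_mul, map_pow, map_ofNat, ha, mul_zero, zero_mul, zero_add]
    at e₂ e₄ e₆
  refine ⟨residue A r, residue A u ^ 2, pow_ne_zero 2 hu0, ?_⟩
  rw [Ψ₂Sq, map_b₂, map_b₄, map_b₆, eq_intCast, eq_intCast, eq_intCast, e₂, e₄, e₆]
  simp only [map_sub, map_mul, map_pow, map_ofNat]
  ring

/-- Some point of order `q` is off the identity component. -/
theorem exists_torsion_notMem_self (h : MultAt W A q) (h2 : q ≠ 2) :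
    ∃ P : (EQ W).Point, q • P = 0 ∧ P ∉ h.node.E0 := by
  classical
  have : Fact q.Prime := ⟨h.prime⟩
  have hodd : Odd q := h.prime.odd_of_ne_two h2
  have := EC.Reduction.charP_of_liesOverPrime (residue A) h.prime h.liesOver
  have := EC.Torsion.isElliptic_baseChange_map W h.Δ_ne_zero Qbar
  obtain ⟨x, hx, hxA⟩ : ∃ x, ((EQ W).preΨ' q).IsRoot x ∧ x ∈ A := by
    by_contra hcon
    push Not at hcon
    set F := W.preΨ' q
    have hG : (EQ W).preΨ' q = F.map (Int.castRingHom Qbar) :=
      EC.Reducible.preΨ'_baseChange_int W q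
    set G := F.map (Int.castRingHom Qbar)
    obtain ⟨H, hH1, hH2⟩ := exists_const_of_roots_notMem (A := A) G.roots fun a ha => by
      refine hcon a ?_
      rw [hG]
      exact isRoot_of_mem_roots ha
    have hGH : G = C G.leadingCoeff * C ((G.roots.map fun a => -a).prod) * H.map A.subtype := by
      conv_lhs => rw [(IsAlgClosed.splits G).eq_prod_roots, hH2, ← mul_assoc]
    set L := G.leadingCoeff * (G.roots.map fun a => -a).prod with hL
    rw [← C_mul, ← hL] at hGH
    -- the constant term
    have hH0 : IsUnit (H.coeff 0) := by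
      rw [← residue_ne_zero_iff_isUnit, ← coeff_map, hH1, coeff_one_zero]
      exact one_ne_zero
    obtain ⟨w, hw⟩ := hH0
    have hc0 := congrArg (fun P : Qbar[X] => P.coeff 0) hGH
    simp only [G, coeff_map, coeff_C_mul, ← hw, eq_intCast] at hc0
    set c₀ : A := (F.coeff 0 : A) * (↑w⁻¹ : A)
    have hLc : (c₀ : Qbar) = L := by
      show (((F.coeff 0 : ℤ) : A) : Qbar) * ((↑w⁻¹ : A) : Qbar) = L
      rw [show (((F.coeff 0 : ℤ) : A) : Qbar) = (F.coeff 0 : Qbar) from map_intCast A.subtype _,
        hc0, mul_assoc]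
      rw [show (A.subtype ↑w : Qbar) * ((↑w⁻¹ : A) : Qbar) = 1 from congrArg Subtype.val w.mul_inv,
        mul_one]
    have hFA : F.map (Int.castRingHom A) = C c₀ * H := by
      refine Polynomial.map_injective A.subtype Subtype.val_injective ?_
      rw [Polynomial.map_map, RingHom.eq_intCast' (A.subtype.comp _), Polynomial.map_mul,
        Polynomial.map_C, show A.subtype c₀ = L from hLc]
      exact hGH
    have hred := congrArg (Polynomial.map (residue A)) hFA
    rw [Polynomial.map_map, RingHom.eq_intCast' ((residue A).comp _), Polynomial.map_mul,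
      Polynomial.map_C, hH1, mul_one, ← map_preΨ'] at hred
    -- the coefficient which survives
    obtain ⟨R, c, hc, hΨ⟩ := exists_Ψ₂Sq_nodal h
    set W₀ := W.map (Int.castRingHom (ResidueField A))
    have hasse : Carayol.hasseCoeff W₀ q = c ^ ((q - 1) / 2) :=
      coeff_nodal_pow h2 R c hΨ
    have htop := Carayol.topCoeff_sq (q := q) W₀ h2
    rw [hasse] at htop
    have hne : Carayol.topCoeff W₀ q ≠ 0 := fun h0 => by
      rw [h0, zero_pow two_ne_zero] at htop
      exact pow_ne_zero 2 (pow_ne_zero _ hc) htop.symm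
    refine hne ?_
    rw [Carayol.topCoeff, Carayol.redH, coeff_contract h.prime.ne_zero, hred, coeff_C,
      if_neg (Nat.mul_ne_zero (by have := h.prime.two_le; omega) h.prime.ne_zero)]
  obtain ⟨y, hns, hP⟩ :=
    EC.Torsion.exists_preΨ'_root_eq (W.map (Int.castRingHom ℚ)) Qbar hodd x hx
  refine ⟨.some x y hns, ?_, fun hE => ?_⟩
  · rw [Submodule.mem_torsionBy_iff, natCast_zsmul] at hP
    exact hP
  · have hz : q ^ 1 • Affine.Point.some x y hns = 0 := by
      rw [pow_one]; rw [Submodule.mem_torsionBy_iff, natCast_zsmul] at hP; exact hP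
    rcases EC.Reducible.redTo_zero_of_mult h ((h.inZeroComponentAt_iff_mem_E0 _).2 hE) hz with
      ⟨hx', -⟩ | ⟨x₀, y₀, h₀, -, -, h0⟩
    · exact hx' hxA
    · exact Affine.Point.some_ne_zero h₀ h0.symm

end Fermat.Agent.Root.TateLift
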