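import Fermat.Agent.Root.TateLift.Basis
import Fermat.Agent.Root.TateLift.Node
import Fermat.Agent.Multiplicative.Inertia

/-!
# `E[pⁿ]` at a multiplicative prime

For every residue characteristic, the points of `E[pⁿ]` on the identity component form a free line
as soon as some point of order `p` is off it; for `p` odd there is always one.
-/

set_option autoImplicit false

noncomputable section

open WeierstrassCurve
open scoped WeierstrassCurve.Affine

namespace Fermat.Agent.Root.TateLift

open Fermat.Agent.Multiplicative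

local notation "Qbar" => AlgebraicClosure ℚ

variable {W : WeierstrassCurve ℤ} {A : ValuationSubring Qbar} {q : ℕ} {p : ℕ} [Fact p.Prime]
  (h : MultAt W A q)
include h

/-- Some point of order `p` is off the identity component. -/
theorem exists_torsion_notMem (hp2 : p ≠ 2) : ∃ P : EP W, p • P = 0 ∧ P ∉ h.node.E0 := by
  rcases eq_or_ne p q with rfl | hpq
  · exact exists_torsion_notMem_self h hp2
  by_contra hcon
  push Not at hcon
  have hp : p.Prime := Fact.out
  have hcard := natCard_TE (N := p) h.Δ_ne_zero hp.ne_zero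
  have : Finite (TE W p) :=
    Nat.finite_of_card_ne_zero (by rw [hcard]; exact pow_ne_zero _ hp.ne_zero)
  have : Nontrivial (TE W p) :=
    Finite.one_lt_card_iff_nontrivial.mp (by rw [hcard]; exact Nat.one_lt_pow two_ne_zero hp.one_lt)
  obtain ⟨T, hT⟩ := exists_ne (0 : TE W p)
  have hmem : ∀ R : TE W p, W.InZeroComponentAt A (R : EP W) := fun R =>
    (h.inZeroComponentAt_iff_mem_E0 _).2 (hcon _ (nsmul_coe R))
  have hk : ∀ R : TE W p, ∃ k : Fin p, (k : ℕ) • T = R := fun R => by
    obtain ⟨k, hk⟩ := h.exists_nsmul_eq_of_mem_E0 hp hpq (hmem T) (hmem R) (nsmul_coe T)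
      (nsmul_coe R) fun e => hT (Subtype.ext e)
    refine ⟨⟨k % p, Nat.mod_lt _ hp.pos⟩, Subtype.ext ?_⟩
    rw [hk, Submodule.coe_smul_of_tower]
    show (k % p) • (T : EP W) = k • (T : EP W)
    conv_rhs => rw [← Nat.mod_add_div k p, add_nsmul, mul_nsmul, nsmul_coe, nsmul_zero, add_zero]
  choose k hk using hk
  have hle := Nat.card_le_card_of_injective k fun R R' e => by rw [← hk R, e, hk R']
  rw [hcard, Nat.card_eq_fintype_card, Fintype.card_fin, sq] at hle
  exact absurd (le_of_le_of_eq hle (mul_one p).symm) (not_le.2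
    (Nat.mul_lt_mul_of_pos_left hp.one_lt hp.pos))

/-- The points killed by `p ^ j` on the identity component. -/
def kerPart (j : ℕ) : AddSubgroup (EP W) := (TE W (p ^ j)).toAddSubgroup ⊓ h.node.E0

omit [Fact (Nat.Prime p)] in
theorem mem_kerPart {j : ℕ} {P : EP W} :
    P ∈ kerPart (p := p) h j ↔ p ^ j • P = 0 ∧ P ∈ h.node.E0 := by
  rw [kerPart, AddSubgroup.mem_inf, Submodule.mem_toAddSubgroup, mem_TE]

theorem finite_kerPart (j : ℕ) : Finite (kerPart (p := p) h j) := by
  have hfin : Finite (TE W (p ^ j)) := Nat.finite_of_card_ne_zero (by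
    rw [natCard_TE h.Δ_ne_zero (NeZero.ne _)]; exact pow_ne_zero _ (NeZero.ne _))
  exact Finite.of_injective (fun P : kerPart (p := p) h j => (⟨(P : EP W), P.2.1⟩ : TE W (p ^ j)))
    fun P Q e => Subtype.ext (congrArg (fun R : TE W (p ^ j) => (R : EP W)) e)

theorem card_kerPart_one_le (hoff : ∃ P : EP W, p • P = 0 ∧ P ∉ h.node.E0) :
    Nat.card (kerPart (p := p) h 1) ≤ p := by
  obtain ⟨f, hf, hfE⟩ := hoff
  set T := (TE W (p ^ 1)).toAddSubgroup
  have hcard : Nat.card T = (p ^ 1) ^ 2 := natCard_TE (N := p ^ 1) h.Δ_ne_zero (NeZero.ne _)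
  have hfin : Finite T :=
    Nat.finite_of_card_ne_zero (by rw [hcard]; exact pow_ne_zero _ (NeZero.ne _))
  have hle : kerPart (p := p) h 1 ≤ T := inf_le_left
  have hdvd := AddSubgroup.card_dvd_of_le hle
  rw [hcard, pow_one, Nat.dvd_prime_pow (Fact.out : p.Prime)] at hdvd
  obtain ⟨i, hi, hic⟩ := hdvd
  rw [hic]
  rcases Nat.lt_or_ge i 2 with hlt | hge
  · exact (Nat.pow_le_pow_right (Fact.out : p.Prime).pos (Nat.lt_succ_iff.1 hlt)).trans
      (pow_one p).le
  · exfalso
    have heq : kerPart (p := p) h 1 = T := AddSubgroup.eq_of_le_of_card_ge hle (by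
      rw [hcard, hic, pow_one]; exact Nat.pow_le_pow_right (Fact.out : p.Prime).pos hge)
    have hfT : f ∈ T := mem_TE.2 (by rw [pow_one]; exact hf)
    exact hfE ((mem_kerPart (p := p) h).1 (heq ▸ hfT)).2

theorem card_kerPart_le (hoff : ∃ P : EP W, p • P = 0 ∧ P ∉ h.node.E0) (j : ℕ) :
    Nat.card (kerPart (p := p) h j) ≤ p ^ j := by
  induction j with
  | zero =>
    have : Subsingleton (kerPart (p := p) h 0) := ⟨fun P Q => Subtype.ext (by
      have hP := ((mem_kerPart (p := p) h).1 P.2).1
      have hQ := ((mem_kerPart (p := p) h).1 Q.2).1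
      rw [pow_zero, one_nsmul] at hP hQ
      rw [hP, hQ])⟩
    simp
  | succ j ih =>
    have := finite_kerPart (p := p) h j
    have := finite_kerPart (p := p) h 1
    let f : kerPart (p := p) h (j + 1) →+ kerPart (p := p) h 1 :=
      ((nsmulAddMonoidHom (p ^ j)).comp (kerPart (p := p) h (j + 1)).subtype).codRestrict
        (kerPart (p := p) h 1)
        fun P => (mem_kerPart (p := p) h).2 ⟨by
          rw [AddMonoidHom.comp_apply, nsmulAddMonoidHom_apply, ← mul_nsmul', ← pow_add, add_comm]
          exact ((mem_kerPart (p := p) h).1 P.2).1,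
          h.node.E0.nsmul_mem ((mem_kerPart (p := p) h).1 P.2).2 _⟩
    have hker : Nat.card f.ker ≤ Nat.card (kerPart (p := p) h j) :=
      Nat.card_le_card_of_injective
        (fun P => ⟨((P : kerPart (p := p) h (j + 1)) : EP W), (mem_kerPart (p := p) h).2
          ⟨congrArg Subtype.val (AddMonoidHom.mem_ker.1 P.2),
            ((mem_kerPart (p := p) h).1 P.1.2).2⟩⟩)
        fun P Q e =>
          Subtype.ext (Subtype.ext (congrArg (fun R : kerPart (p := p) h j => (R : EP W)) e))
    have hrange : Nat.card f.range ≤ p :=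
      (Nat.card_le_card_of_injective _ Subtype.val_injective).trans (card_kerPart_one_le h hoff)
    rw [AddSubgroup.card_eq_card_quotient_mul_card_addSubgroup f.ker,
      Nat.card_congr (QuotientAddGroup.quotientKerEquivRange f).toEquiv, pow_succ']
    exact Nat.mul_le_mul hrange (hker.trans ih)

/-- At most `N` components are killed by `N`. -/
theorem card_comp_range_le {N : ℕ} [NeZero N] :
    Nat.card ((h.node.comp.comp (TE W N).subtype.toAddMonoidHom).range) ≤ N := by
  set f := h.node.comp.comp (TE W N).subtype.toAddMonoidHom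
  have hex : ∀ c : f.range, ∃ (P : EP W) (k : ℤ),
      h.node.comp P = c ∧ h.node.wPoint P ^ N = A.valuation h.node.a ^ k := by
    rintro ⟨_, P, rfl⟩
    obtain ⟨k, hk⟩ := h.exists_wPoint_pow (nsmul_coe P)
    exact ⟨(P : EP W), k, rfl, hk⟩
  choose P k hP hk using hex
  have hinj : Function.Injective fun c => (k c : ZMod N) := fun c c' hcc => Subtype.ext (by
    obtain ⟨j, hj⟩ := (ZMod.intCast_eq_intCast_iff_dvd_sub _ _ N).1 hcc
    rw [← hP c, ← hP c', NodeData.comp_apply, NodeData.comp_apply, NodeData.cls, NodeData.cls]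
    refine congrArg Additive.ofMul ((QuotientGroup.eq).2 (Subgroup.mem_zpowers_iff.2 ⟨j, ?_⟩))
    refine Units.ext ?_
    simp only [Units.val_zpow_eq_zpow_val, Units.val_mk0, Units.val_mul, Units.val_inv_eq_inv_val]
    refine (pow_left_inj₀ zero_le zero_le (NeZero.ne N)).1 ?_
    rw [mul_pow, inv_pow, hk, hk, ← zpow_natCast _ N, ← zpow_mul,
      ← zpow_neg, ← zpow_add₀ ((map_ne_zero _).2 h.node.ha₀)]
    congr 1
    linear_combination -hj)
  simpa using Nat.card_le_card_of_injective _ hinj

/-- If some point of order `p` is off the identity component, this component meets `E[pⁿ]` in a free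
line. -/
theorem exists_line_generator (hoff : ∃ P : EP W, p • P = 0 ∧ P ∉ h.node.E0) (n : ℕ) (hn : 1 ≤ n) :
    ∃ P : EP W, p ^ n • P = 0 ∧ p ^ (n - 1) • P ≠ 0 ∧ P ∈ h.node.E0 ∧
      ∀ R : EP W, p ^ n • R = 0 → R ∈ h.node.E0 → R ∈ AddSubgroup.zmultiples P := by
  have := finite_kerPart (p := p) h n
  set f := h.node.comp.comp (TE W (p ^ n)).subtype.toAddMonoidHom
  have hker : Nat.card f.ker ≤ Nat.card (kerPart (p := p) h n) :=
    Nat.card_le_card_of_injective
      (fun P => ⟨((P : TE W (p ^ n)) : EP W), (mem_kerPart (p := p) h).2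
        ⟨nsmul_coe (P : TE W (p ^ n)), AddMonoidHom.mem_ker.2 (AddMonoidHom.mem_ker.1 P.2 :)⟩⟩)
      fun P Q e =>
        Subtype.ext (Subtype.ext (congrArg (fun R : kerPart (p := p) h n => (R : EP W)) e))
  have hcard := AddSubgroup.card_eq_card_quotient_mul_card_addSubgroup f.ker
  rw [Nat.card_congr (QuotientAddGroup.quotientKerEquivRange f).toEquiv,
    natCard_TE h.Δ_ne_zero (pow_ne_zero n (Fact.out : p.Prime).ne_zero), sq] at hcard
  have hlow : p ^ n ≤ Nat.card (kerPart (p := p) h n) :=
    Nat.le_of_mul_le_mul_left (hcard.trans_le (Nat.mul_le_mul (card_comp_range_le h) hker))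
      (pow_pos (Fact.out : p.Prime).pos n)
  obtain ⟨P, hP, hP1⟩ : ∃ P ∈ kerPart (p := p) h n, p ^ (n - 1) • P ≠ 0 := by
    by_contra hcon
    push Not at hcon
    have := finite_kerPart (p := p) h (n - 1)
    have hle : Nat.card (kerPart (p := p) h n) ≤ Nat.card (kerPart (p := p) h (n - 1)) :=
      Nat.card_le_card_of_injective
        (AddSubgroup.inclusion fun P hP => (mem_kerPart (p := p) h).2
          ⟨hcon P hP, ((mem_kerPart (p := p) h).1 hP).2⟩) (AddSubgroup.inclusion_injective _)
    have := (hlow.trans hle).trans (card_kerPart_le h hoff (n - 1))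
    rw [Nat.pow_le_pow_iff_right (Fact.out : p.Prime).one_lt] at this
    omega
  obtain ⟨hPn, hPE⟩ := (mem_kerPart (p := p) h).1 hP
  refine ⟨P, hPn, hP1, hPE, fun R hR hRE => ?_⟩
  have hord : addOrderOf P = p ^ n := by
    obtain ⟨m, rfl⟩ : ∃ m, n = m + 1 := ⟨n - 1, by omega⟩
    exact addOrderOf_eq_prime_pow hP1 hPn
  have heq : AddSubgroup.zmultiples P = kerPart (p := p) h n :=
    AddSubgroup.eq_of_le_of_card_ge (AddSubgroup.zmultiples_le_of_mem hP)
      (by rw [Nat.card_zmultiples, hord]; exact card_kerPart_le h hoff n)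
  rw [heq]
  exact (mem_kerPart (p := p) h).2 ⟨hR, hRE⟩

end Fermat.Agent.Root.TateLift
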