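import Fermat.Agent.Root.TateLift.Limit
import Fermat.Agent.Root.TateLift.Line
import Fermat.Agent.Root.TwoPower.NodeFrob

/-!
# The Tate module at a multiplicative prime

An unramified quadratic character `μ` cuts out a stable line, for every residue characteristic.
-/

set_option autoImplicit false

noncomputable section

open WeierstrassCurve WeierstrassCurve.Affine.Point
open scoped WeierstrassCurve.Affine

namespace Fermat.Agent.Root.TateLift

open Fermat.Agent.Deformation Fermat.Agent.Multiplicative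
open TwoPower (comp_smul_decomposition)

local notation "ℚbar" => AlgebraicClosure ℚ
local notation "Γ" => AlgebraicClosure ℚ ≃ₐ[ℚ] AlgebraicClosure ℚ

variable {W : WeierstrassCurve ℤ} {p : ℕ} [Fact p.Prime]

/-- At one level: a stable line with quotient character the sign on components. -/
theorem level_relation {A : ValuationSubring ℚbar} {q : ℕ} (h : MultAt W A q) (hp2 : p ≠ 2)
    {n : ℕ} (hn : 1 ≤ n) (b : Module.Basis (Fin 2) (ZMod (p ^ n)) (TE W (p ^ n)))
    {μg μh : ZMod (p ^ n)} {g g' : Γ} (hμ : μg * μg = 1)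
    (hg : μg = 1 ∧ (∀ P, h.node.comp (g • P) = h.node.comp P) ∨
      μg = -1 ∧ ∀ P, h.node.comp (g • P) = -h.node.comp P)
    (hg' : μh = 1 ∧ (∀ P, h.node.comp (g' • P) = h.node.comp P) ∨
      μh = -1 ∧ ∀ P, h.node.comp (g' • P) = -h.node.comp P) :
    (LinearMap.toMatrix b b (frobEnd W (p ^ n) g) -
        ((LinearMap.toMatrix b b (frobEnd W (p ^ n) g)).det * μg) • (1 : M2 (ZMod (p ^ n)))) *
      (LinearMap.toMatrix b b (frobEnd W (p ^ n) g') - μh • (1 : M2 (ZMod (p ^ n)))) = 0 := by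
  classical
  have hp : p.Prime := Fact.out
  have hΔ := h.Δ_ne_zero
  obtain ⟨P, hPn, hP1, hPE, hline⟩ :=
    exists_line_generator (p := p) h (exists_torsion_notMem h hp2) n hn
  obtain ⟨f, hf, hfE⟩ := exists_torsion_notMem (p := p) h hp2
  obtain ⟨Q, hQ, hQn⟩ := exists_pow_nsmul_eq (p := p) (j := 1) hΔ (n - 1) (x := f)
    (by rwa [pow_one])
  rw [Nat.add_sub_cancel' hn] at hQn
  set e := p ^ (n - 1) • P with he
  have heE : e ∈ h.node.E0 := h.node.E0.nsmul_mem hPE _
  have he2 : p ^ 1 • e = 0 := by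
    rw [he, ← mul_nsmul', ← pow_add, Nat.add_sub_cancel' hn, hPn]
  have hord : ∀ x : EP W, x ≠ 0 → p ^ 1 • x = 0 → ∀ z : ℕ, z • x = 0 → p ∣ z :=
    fun x hx hpx z hz => by
      have ho : addOrderOf x = p := addOrderOf_eq_prime (by rwa [pow_one] at hpx) hx
      rw [← ho]; exact addOrderOf_dvd_of_nsmul_eq_zero hz
  let PQ : Fin 2 → TE W (p ^ n) := ![⟨P, mem_TE.2 hPn⟩, ⟨Q, mem_TE.2 hQn⟩]
  obtain ⟨b₂, hb₂⟩ := exists_basis_of_independent (N := p ^ 1) hΔ
    ![⟨e, mem_TE.2 he2⟩, ⟨f, mem_TE.2 (by rwa [pow_one])⟩] fun z hz => by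
      have hz' : (z 0).val • e + (z 1).val • f = 0 := by
        have := congrArg Subtype.val hz
        simpa [coe_zmod_smul] using this
      have hlt : ∀ i, (z i).val < p := fun i => (z i).val_lt.trans_le (pow_one p).le
      have h1 : (z 1).val = 0 := by
        by_contra h1
        have hcop : Nat.Coprime (z 1).val p := Nat.Coprime.symm
          ((hp.coprime_iff_not_dvd).2 fun hd =>
            absurd (Nat.le_of_dvd (Nat.pos_of_ne_zero h1) hd) (not_le.2 (hlt 1)))
        have hmem : (z 1).val • f ∈ h.node.E0 := by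
          rw [eq_neg_of_add_eq_zero_right hz']
          exact h.node.E0.neg_mem (h.node.E0.nsmul_mem heE _)
        obtain ⟨u, w, huw⟩ := Nat.isCoprime_iff_coprime.2 hcop
        refine hfE ?_
        rw [← one_zsmul f, ← huw, add_zsmul, mul_zsmul, mul_zsmul, natCast_zsmul, natCast_zsmul,
          hf, zsmul_zero, add_zero]
        exact h.node.E0.zsmul_mem hmem u
      have h0 : (z 0).val = 0 := by
        rw [h1, zero_nsmul, add_zero] at hz'
        exact Nat.eq_zero_of_dvd_of_lt (hord e hP1 he2 _ hz') (hlt 0)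
      funext i
      fin_cases i
      · exact (ZMod.val_eq_zero _).1 h0
      · exact (ZMod.val_eq_zero _).1 h1
  obtain ⟨c, hc⟩ := exists_basis_of_lift hΔ le_rfl hn b₂ PQ fun i => by
    rw [hb₂]
    fin_cases i
    · rfl
    · exact hQ
  set F : Γ → Module.End (ZMod (p ^ n)) (TE W (p ^ n)) := fun σ => frobEnd W (p ^ n) σ
  have hspan : ∀ R : TE W (p ^ n), (R : EP W) ∈ h.node.E0 →
      ∃ z : ZMod (p ^ n), R = z • c 0 := fun R hR => by
    obtain ⟨z, hz⟩ := AddSubgroup.mem_zmultiples_iff.1 (hline R (nsmul_coe R) hR)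
    refine ⟨(z : ZMod (p ^ n)), Subtype.ext ?_⟩
    rw [Int.cast_smul_eq_zsmul, hc 0]
    exact hz.symm
  have hquot : ∀ (γ : Γ) (μ : ZMod (p ^ n)),
      (μ = 1 ∧ (∀ P, h.node.comp (γ • P) = h.node.comp P) ∨
        μ = -1 ∧ ∀ P, h.node.comp (γ • P) = -h.node.comp P) →
      ∀ R : TE W (p ^ n), ∃ z : ZMod (p ^ n), F γ R - μ • R = z • c 0 := fun γ μ hγ R => hspan _ (by
    rw [NodeData.E0, AddMonoidHom.mem_ker]
    rcases hγ with ⟨h1, hP⟩ | ⟨h1, hP⟩
    · rw [h1, one_smul, Submodule.coe_sub, map_sub, coe_frobEnd, hP, sub_self]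
    · rw [h1, neg_one_smul, sub_neg_eq_add, Submodule.coe_add, map_add, coe_frobEnd, hP,
        neg_add_cancel])
  obtain ⟨w, hw⟩ : ∃ z : ZMod (p ^ n), F g (c 0) = z • c 0 := by
    obtain ⟨z, hz⟩ := hquot g μg hg (c 0)
    exact ⟨z + μg, by rw [add_smul, ← hz, sub_add_cancel]⟩
  obtain ⟨x, hx⟩ := hquot g μg hg (c 1)
  have hdet : LinearMap.det (F g) * μg = w := by
    have hx' : F g (c 1) = x • c 0 + μg • c 1 := by rw [← hx, sub_add_cancel]
    rw [← LinearMap.det_toMatrix c, Matrix.det_fin_two]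
    simp only [LinearMap.toMatrix_apply, hw, hx', map_add, map_smul, Finsupp.add_apply,
      Finsupp.smul_apply, Module.Basis.repr_self, smul_eq_mul]
    simp [mul_assoc, hμ]
  have hzero : (F g - (LinearMap.det (F g) * μg) • 1) * (F g' - μh • 1) = 0 := by
    refine LinearMap.ext fun R => ?_
    obtain ⟨z, hz⟩ := hquot g' μh hg' R
    simp only [Module.End.mul_apply, LinearMap.sub_apply, LinearMap.smul_apply,
      Module.End.one_apply, LinearMap.zero_apply, hz, map_smul, hw, hdet]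
    rw [sub_self, smul_zero]
  have := congrArg (LinearMap.toMatrix b b) hzero
  rw [LinearMap.toMatrix_mul, map_sub, map_sub, map_smul, map_smul, LinearMap.toMatrix_one,
    _root_.map_zero, ← LinearMap.det_toMatrix b] at this
  exact this

variable {R : GQ →* M2 ℤ_[p]}

/-- The local shape at a bad prime, `p` included. -/
theorem exists_steinberg (hΔ : W.Δ ≠ 0) (hss : W.IsSemistableModel) (hp2 : p ≠ 2)
    (hR : IsTateMatrix W p R) {q : ℕ} (hq : q.Prime) (hqΔ : (q : ℤ) ∣ W.Δ)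
    {A : ValuationSubring ℚbar} (hA : A.LiesOverPrime q) :
    ∃ μ : A.decompositionSubgroup ℚ →* ℤ_[p],
      (∀ g, μ g * μ g = 1) ∧
      (∀ g : A.decompositionSubgroup ℚ, (g : Γ) ∈ A.inertiaSubgroupIn ℚ → μ g = 1) ∧
      ∀ g h : A.decompositionSubgroup ℚ,
        (R g - ((R g).det * μ g⁻¹) • (1 : M2 ℤ_[p])) * (R h - μ h • (1 : M2 ℤ_[p])) = 0 := by
  classical
  have h : MultAt W A q := ⟨hq, hA, hqΔ, hss q hq hqΔ, hΔ⟩
  set u := h.node.u
  have hu : u ≠ 0 := h.node.u_ne_zero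
  have hu' : u ≠ -u := fun he => hu (by linear_combination he / 2)
  let s : A.decompositionSubgroup ℚ → ℤ_[p] := fun g => if (g : Γ) u = u then 1 else -1
  have hs : ∀ g : A.decompositionSubgroup ℚ,
      ((g : Γ) u = u ∧ s g = 1 ∧ ∀ P, h.node.comp ((g : Γ) • P) = h.node.comp P) ∨
      ((g : Γ) u = -u ∧ s g = -1 ∧ ∀ P, h.node.comp ((g : Γ) • P) = -h.node.comp P) := fun g => by
    rcases comp_smul_decomposition h g.2 with ⟨e, hP⟩ | ⟨e, hP⟩
    · exact Or.inl ⟨e, if_pos e, hP⟩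
    · exact Or.inr ⟨e, if_neg (fun e' => hu' (e'.symm.trans e)), hP⟩
  have hmul : ∀ g g' : A.decompositionSubgroup ℚ, s (g * g') = s g * s g' := fun g g' => by
    rcases hs g with ⟨e, h1, -⟩ | ⟨e, h1, -⟩ <;> rcases hs g' with ⟨e', h2, -⟩ | ⟨e', h2, -⟩ <;>
      rw [h1, h2] <;>
      simp only [s, Subgroup.coe_mul, AlgEquiv.mul_apply, e', map_neg, e, neg_neg,
        if_neg hu'.symm, if_true, mul_neg, mul_one]
  let μ : A.decompositionSubgroup ℚ →* ℤ_[p] :=
    { toFun := s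
      map_one' := if_pos rfl
      map_mul' := hmul }
  have hsq : ∀ g, μ g * μ g = 1 := fun g => by
    rcases hs g with ⟨-, e, -⟩ | ⟨-, e, -⟩ <;> simp [show μ g = _ from e]
  have hinv : ∀ g, μ g⁻¹ = μ g := fun g => by
    have e : μ g * μ g⁻¹ = 1 := by rw [← map_mul, mul_inv_cancel, map_one]
    calc μ g⁻¹ = μ g * μ g * μ g⁻¹ := by rw [hsq, one_mul]
      _ = μ g := by rw [mul_assoc, e, mul_one]
  refine ⟨μ, hsq, fun g hg => if_pos (h.node_fixed hg).2.2.2.1, fun g g' => ?_⟩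
  rw [hinv]
  refine eq_of_forall_map fun n hn => ?_
  obtain ⟨c, hc⟩ := hR n hn
  have hcases : ∀ γ : A.decompositionSubgroup ℚ,
      PadicInt.toZModPow n (μ γ) = 1 ∧ (∀ P, h.node.comp ((γ : Γ) • P) = h.node.comp P) ∨
      PadicInt.toZModPow n (μ γ) = -1 ∧
        ∀ P, h.node.comp ((γ : Γ) • P) = -h.node.comp P := fun γ => by
    rcases hs γ with ⟨-, e, hP⟩ | ⟨-, e, hP⟩
    · exact Or.inl ⟨by rw [show μ γ = 1 from e, _root_.map_one], hP⟩
    · exact Or.inr ⟨by rw [show μ γ = -1 from e, map_neg, _root_.map_one], hP⟩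
  have hrel := level_relation h hp2 hn c
    (μg := PadicInt.toZModPow n (μ g)) (μh := PadicInt.toZModPow n (μ g'))
    (g := (g : Γ)) (g' := (g' : Γ))
    (by rw [← map_mul, hsq, _root_.map_one]) (hcases g) (hcases g')
  rw [hc, hc, ← toZModPow_det, ← map_mul] at hrel
  rw [Matrix.map_zero _ (_root_.map_zero _)]
  refine Eq.trans ?_ hrel
  have hsc : ∀ x : ℤ_[p], (PadicInt.toZModPow n).mapMatrix (x • (1 : M2 ℤ_[p])) =
      PadicInt.toZModPow n x • (1 : M2 (ZMod (p ^ n))) := fun x => by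
    rw [RingHom.mapMatrix_apply, Matrix.map_smul' _ _ _ (map_mul _),
      Matrix.map_one _ (_root_.map_zero _) (_root_.map_one _)]
  show (PadicInt.toZModPow n).mapMatrix _ = _
  rw [map_mul, map_sub, map_sub, hsc, hsc]
  rfl

end Fermat.Agent.Root.TateLift
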