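import Fermat.Agent.EC.Torsion.Main
import Fermat.Agent.EC.Reducible.Tower
import Fermat.Prelude.Def_EllipticCurve_FrobeniusTrace

/-!
# Torsion of a Weierstrass curve over `ℚ̄`, and bases of `E[pⁿ]` lifting bases at lower levels

A basis of `E[pᵐ]` lifts to one of `E[pⁿ]` with compatible Galois matrices (`exists_lift`).
-/

set_option autoImplicit false

noncomputable section

open WeierstrassCurve WeierstrassCurve.Affine.Point
open scoped WeierstrassCurve.Affine

namespace Fermat.Agent.Root.TateLift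

local notation "ℚbar" => AlgebraicClosure ℚ
local notation "Γ" => AlgebraicClosure ℚ ≃ₐ[ℚ] AlgebraicClosure ℚ

/-- The points of the generic fibre over `ℚ̄`. -/
abbrev EP (W : WeierstrassCurve ℤ) : Type :=
  ((W.map (Int.castRingHom ℚ))⁄ℚbar).Point

/-- The `N`-torsion points. -/
abbrev TE (W : WeierstrassCurve ℤ) (N : ℕ) : Submodule ℤ (EP W) :=
  Submodule.torsionBy ℤ (EP W) N

variable {W : WeierstrassCurve ℤ}

theorem mem_TE {N : ℕ} {P : EP W} : P ∈ TE W N ↔ N • P = 0 := by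
  rw [Submodule.mem_torsionBy_iff, natCast_zsmul]

theorem nsmul_coe {N : ℕ} (R : TE W N) : N • (R : EP W) = 0 := mem_TE.1 R.2

theorem natCard_TE (hΔ : W.Δ ≠ 0) {N : ℕ} (hN : N ≠ 0) : Nat.card (TE W N) = N ^ 2 :=
  EC.Torsion.natCard_torsionBy_int W hΔ hN

/-- Scalars act through their least representatives. -/
theorem coe_zmod_smul {N : ℕ} [NeZero N] (z : ZMod N) (R : TE W N) :
    ((z • R : TE W N) : EP W) = z.val • (R : EP W) := by
  conv_lhs => rw [← ZMod.natCast_zmod_val z, Nat.cast_smul_eq_nsmul]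
  rfl

theorem exists_basis_of_independent (hΔ : W.Δ ≠ 0) {N : ℕ} [NeZero N] (P : Fin 2 → TE W N)
    (h : ∀ g : Fin 2 → ZMod N, g 0 • P 0 + g 1 • P 1 = 0 → g = 0) :
    ∃ c : Module.Basis (Fin 2) (ZMod N) (TE W N), ∀ i, c i = P i := by
  let Φ := Fintype.linearCombination (ZMod N) P
  have hinj : Function.Injective Φ := by
    rw [injective_iff_map_eq_zero]
    intro g hg
    apply h
    simp only [Φ, Fintype.linearCombination_apply, Fin.sum_univ_two] at hg
    exact hg
  have hfin : Finite (TE W N) := Nat.finite_of_card_ne_zero (by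
    rw [natCard_TE hΔ (NeZero.ne N)]; exact pow_ne_zero _ (NeZero.ne N))
  have hbij : Function.Bijective Φ := (Nat.bijective_iff_injective_and_card _).2 ⟨hinj, by
    rw [natCard_TE hΔ (NeZero.ne N), Nat.card_fun, Nat.card_zmod, Nat.card_fin]⟩
  refine ⟨Module.Basis.ofEquivFun (LinearEquiv.ofBijective Φ hbij).symm, fun i => ?_⟩
  simp [Module.Basis.coe_ofEquivFun, Φ]

/-- The Galois action on `N`-torsion. -/
abbrev frobEnd (W : WeierstrassCurve ℤ) (N : ℕ) (σ : Γ) : Module.End (ZMod N) (TE W N) :=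
  galoisRepModuleEnd (K := ℚbar) ℚ (W.map (Int.castRingHom ℚ)).toAffine N σ

theorem coe_frobEnd {N : ℕ} (σ : Γ) (R : TE W N) :
    (frobEnd W N σ R : EP W) = σ • (R : EP W) := rfl

variable {p : ℕ} [Fact p.Prime]

instance neZero_prime_pow (n : ℕ) : NeZero (p ^ n) := ⟨pow_ne_zero n (Fact.out : p.Prime).ne_zero⟩

/-- Division by `p ^ i`. -/
theorem exists_pow_nsmul_eq (hΔ : W.Δ ≠ 0) (i : ℕ) :
    ∀ {j : ℕ} {x : EP W}, p ^ j • x = 0 → ∃ y : EP W, p ^ i • y = x ∧ p ^ (j + i) • y = 0 := by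
  induction i with
  | zero => exact fun {j x} hx => ⟨x, by simp, by simpa using hx⟩
  | succ i ih =>
    intro j x hx
    obtain ⟨z, hz, hz'⟩ := ih hx
    obtain ⟨y, hy⟩ := EC.Reducible.exists_nsmul_eq hΔ hz'
    refine ⟨y, ?_, ?_⟩
    · rw [pow_succ, mul_nsmul', hy, hz]
    · rw [← add_assoc, pow_succ, mul_nsmul', hy, hz']

/-- Points lifting a basis at level `p ^ m` form a basis at level `p ^ n`. -/
theorem exists_basis_of_lift (hΔ : W.Δ ≠ 0) {m n : ℕ} (hm : 1 ≤ m) (hmn : m ≤ n)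
    (b : Module.Basis (Fin 2) (ZMod (p ^ m)) (TE W (p ^ m))) (P : Fin 2 → TE W (p ^ n))
    (hP : ∀ i, p ^ (n - m) • (P i : EP W) = b i) :
    ∃ c : Module.Basis (Fin 2) (ZMod (p ^ n)) (TE W (p ^ n)), ∀ i, c i = P i := by
  refine exists_basis_of_independent hΔ P fun g hg => ?_
  have hsum : (g 0).val • (P 0 : EP W) + (g 1).val • (P 1 : EP W) = 0 := by
    rw [← coe_zmod_smul, ← coe_zmod_smul, ← Submodule.coe_add, hg]
    rfl
  have key : ∀ j, j ≤ n → ∀ i, p ^ j ∣ (g i).val := by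
    intro j
    induction j with
    | zero => simp
    | succ j ih =>
      intro hj
      choose w hw using ih (by omega)
      have h1 := congrArg (fun x => p ^ (n - 1 - j) • x) hsum
      simp only [hw, nsmul_add, ← mul_nsmul'] at h1
      have he : ∀ i, p ^ (n - 1 - j) * (p ^ j * w i) = p ^ (m - 1) * w i * p ^ (n - m) := fun i =>
        calc p ^ (n - 1 - j) * (p ^ j * w i) = p ^ (n - 1) * w i := by
              rw [← mul_assoc, ← pow_add]; congr 2; omega
          _ = p ^ (m - 1) * w i * p ^ (n - m) := by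
              rw [mul_right_comm, ← pow_add]; congr 2; omega
      simp only [he, mul_nsmul', hP, nsmul_zero] at h1
      have h2 : (p ^ (m - 1) * w 0) • b 0 + (p ^ (m - 1) * w 1) • b 1 = 0 :=
        Subtype.ext (by
          simp only [Submodule.coe_add, Submodule.coe_smul_of_tower, Submodule.coe_zero, mul_nsmul']
          exact h1)
      rw [← Nat.cast_smul_eq_nsmul (ZMod (p ^ m)), ← Nat.cast_smul_eq_nsmul (ZMod (p ^ m))] at h2
      have h3 := Fintype.linearIndependent_iff.1 b.linearIndependent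
        (fun i => ((p ^ (m - 1) * w i : ℕ) : ZMod (p ^ m)))
        (by rw [Fin.sum_univ_two]; exact h2)
      intro i
      have h4 := (ZMod.natCast_eq_zero_iff _ _).1 (h3 i)
      have h5 : p ^ (m - 1) * p ∣ p ^ (m - 1) * w i := by
        rwa [← pow_succ, Nat.sub_add_cancel hm]
      obtain ⟨e, he'⟩ := Nat.dvd_of_mul_dvd_mul_left (Nat.pos_of_neZero _) h5
      exact ⟨e, by rw [hw, he', pow_succ]; ring⟩
  funext i
  exact (ZMod.val_eq_zero _).1 (Nat.eq_zero_of_dvd_of_lt (key n le_rfl i) (g i).val_lt)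

/-- A basis at level `p ^ m` lifts to one at level `p ^ n`, with compatible matrices. -/
theorem exists_lift (hΔ : W.Δ ≠ 0) {m n : ℕ} (hm : 1 ≤ m) (hmn : m ≤ n)
    (b : Module.Basis (Fin 2) (ZMod (p ^ m)) (TE W (p ^ m))) :
    ∃ c : Module.Basis (Fin 2) (ZMod (p ^ n)) (TE W (p ^ n)), ∀ σ : Γ,
      (LinearMap.toMatrix c c (frobEnd W (p ^ n) σ)).map
        (ZMod.castHom (Nat.pow_dvd_pow p hmn) (ZMod (p ^ m))) =
      LinearMap.toMatrix b b (frobEnd W (p ^ m) σ) := by
  have hex : ∀ i, ∃ y : EP W, p ^ (n - m) • y = b i ∧ p ^ (m + (n - m)) • y = 0 := fun i =>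
    exists_pow_nsmul_eq hΔ (n - m) (nsmul_coe (b i))
  choose y hy hy' using hex
  rw [Nat.add_sub_cancel' hmn] at hy'
  obtain ⟨c, hc⟩ := exists_basis_of_lift hΔ hm hmn b (fun i => ⟨y i, mem_TE.2 (hy' i)⟩) hy
  refine ⟨c, fun σ => ?_⟩
  ext i j
  set f := ZMod.castHom (Nat.pow_dvd_pow p hmn) (ZMod (p ^ m))
  have hred : ∀ (z : ZMod (p ^ n)) (k : Fin 2),
      ((f z • b k : TE W (p ^ m)) : EP W) = p ^ (n - m) • ((z • c k : TE W (p ^ n)) : EP W) := by
    intro z k
    rw [coe_zmod_smul z, ← mul_nsmul', mul_comm, mul_nsmul', hc, hy,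
      show f z = ((z.val : ℕ) : ZMod (p ^ m)) by
        rw [← map_natCast f, ZMod.natCast_zmod_val],
      Nat.cast_smul_eq_nsmul]
    rfl
  have hsum : frobEnd W (p ^ m) σ (b j) =
      ∑ k, f (LinearMap.toMatrix c c (frobEnd W (p ^ n) σ) k j) • b k := by
    apply Subtype.ext
    rw [Submodule.coe_sum, Finset.sum_congr rfl fun k _ => hred _ k, ← Finset.smul_sum,
      ← Submodule.coe_sum, coe_frobEnd, ← hy j]
    have : ∑ k, LinearMap.toMatrix c c (frobEnd W (p ^ n) σ) k j • c k =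
        frobEnd W (p ^ n) σ (c j) := by
      simp only [LinearMap.toMatrix_apply, c.sum_repr]
    rw [this, coe_frobEnd, hc]
    exact (map_nsmul (DistribSMul.toAddMonoidHom (EP W) σ) _ _)
  rw [Matrix.map_apply, LinearMap.toMatrix_apply b b, hsum, b.repr_sum_self]

end Fermat.Agent.Root.TateLift
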