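import Fermat.Agent.GalRep.CoeffRing

/-!
# A coefficient ring with `ζ_p` whose residue field splits the quadratics over `𝔽_p`

A finite extension of `ℤ_p` with a primitive `p`-th root of unity over whose residue field the
characteristic polynomials of `GL₂(𝔽_p)` split (`exists_coeffRing`).
-/

set_option autoImplicit false

noncomputable section

open IsLocalRing Polynomial
open scoped NumberField

namespace Fermat.Agent.Root.TateLift

/-- A field of characteristic `p` with the roots of unity of order `p² - 1` splits the quadratics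
over the prime field. -/
theorem exists_roots_quadratic {k : Type} [Field k] {p : ℕ} [Fact p.Prime] [CharP k p] {η : k}
    (hη : IsPrimitiveRoot η (p ^ 2 - 1)) {t d : k} (ht : t ^ p = t) (hd : d ^ p = d) :
    ∃ α β : k, X ^ 2 - C t * X + C d = (X - C α) * (X - C β) := by
  have hp : p.Prime := Fact.out
  let f := algebraMap k (AlgebraicClosure k)
  have : CharP (AlgebraicClosure k) p := charP_of_injective_ringHom f.injective p
  have hpos : 0 < p ^ 2 - 1 := by have := Nat.one_lt_pow two_ne_zero hp.one_lt; omega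
  obtain ⟨a, ha⟩ := IsAlgClosed.exists_root (X ^ 2 - C (f t) * X + C (f d))
    (by rw [show X ^ 2 - C (f t) * X + C (f d) = X ^ 2 + C (-f t) * X + C (f d) by simp; ring]
        rw [show degree _ = ((2 : ℕ) : WithBot ℕ) by compute_degree!]; decide)
  have ha' : a ^ 2 - f t * a + f d = 0 := by simpa [IsRoot] using ha
  have hfrob : (a ^ p) ^ 2 - f t * a ^ p + f d = 0 := by
    have h := congrArg (frobenius (AlgebraicClosure k) p) ha'
    simp only [map_add, map_sub, map_mul, map_pow, map_zero, frobenius_def] at h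
    rwa [← map_pow f, ht, ← map_pow f d, hd] at h
  have hfac : (a ^ p - a) * (a ^ p - (f t - a)) = 0 := by linear_combination hfrob - ha'
  have ha2 : a ^ p ^ 2 = a := by
    rw [sq, pow_mul]
    rcases mul_eq_zero.mp hfac with h | h
    · rw [sub_eq_zero.mp h, sub_eq_zero.mp h]
    · rw [sub_eq_zero.mp h, sub_pow_char, ← map_pow, ht, sub_eq_zero.mp h, sub_sub_cancel]
  obtain ⟨α, hα⟩ : ∃ α, f α = a := by
    rcases eq_or_ne a 0 with h0 | h0
    · exact ⟨0, by rw [map_zero, h0]⟩
    · have h1 : a ^ (p ^ 2 - 1) = 1 := by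
        refine mul_right_cancel₀ h0 ?_
        rw [← pow_succ, Nat.sub_add_cancel (Nat.one_le_pow _ _ hp.pos), ha2, one_mul]
      have : NeZero (p ^ 2 - 1) := ⟨hpos.ne'⟩
      obtain ⟨i, -, hi⟩ := (hη.map_of_injective f.injective).eq_pow_of_pow_eq_one h1
      exact ⟨η ^ i, by rw [map_pow, hi]⟩
  refine ⟨α, t - α, ?_⟩
  have hα' : α ^ 2 - t * α + d = 0 := f.injective (by
    rw [map_zero, map_add, map_sub, map_mul, map_pow, hα]; exact ha')
  have hC := congrArg C hα'
  simp only [map_add, map_sub, map_mul, map_pow, map_zero] at hC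
  rw [C_sub]
  linear_combination hC

/-- The coefficient ring of the residual data. -/
theorem exists_coeffRing (p : ℕ) [Fact p.Prime] :
    ∃ (O : Type) (_ : CommRing O) (_ : IsDomain O) (_ : IsDiscreteValuationRing O)
      (_ : IsAdicComplete (maximalIdeal O) O) (_ : Finite (ResidueField O)) (_ : CharZero O),
      (p : O) ∈ maximalIdeal O ∧ (∃ ζ : O, ζ ^ p = 1 ∧ ζ ≠ 1) ∧
      ∀ (ι : ZMod p →+* ResidueField O) (M : Matrix (Fin 2) (Fin 2) (ZMod p)),
        ∃ α β : ResidueField O, (M.map ι).charpoly = (X - C α) * (X - C β) := by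
  have hp : p.Prime := Fact.out
  have h1 : 1 < p ^ 2 := Nat.one_lt_pow two_ne_zero hp.one_lt
  set m := p * (p ^ 2 - 1) with hm
  have : NeZero m := ⟨mul_ne_zero hp.ne_zero (by omega)⟩
  let K := CyclotomicField m ℚ
  have : NeZero ((m : ℕ) : ℚ) := ⟨Nat.cast_ne_zero.mpr (NeZero.ne m)⟩
  have : IsCyclotomicExtension {m} ℚ K := CyclotomicField.isCyclotomicExtension m ℚ
  have : NumberField K := IsCyclotomicExtension.numberField {m} ℚ K
  have hz := (IsCyclotomicExtension.zeta_spec m ℚ K).toInteger_isPrimitiveRoot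
  set z := (IsCyclotomicExtension.zeta_spec m ℚ K).toInteger
  have hne : Ideal.span {(p : 𝓞 K)} ≠ ⊤ := by
    intro h
    have hu : IsUnit (algebraMap ℤ (𝓞 K) p) := by
      rw [map_natCast]; exact Ideal.span_singleton_eq_top.mp h
    have : IsLocalHom (algebraMap ℤ (𝓞 K)) :=
      RingHom.IsIntegral.isLocalHom (Algebra.IsIntegral.isIntegral) (RingHom.injective_int _)
    exact hp.not_isUnit (Int.ofNat_isUnit.mp (isUnit_of_map_unit (algebraMap ℤ (𝓞 K)) _ hu))
  obtain ⟨P, hP, hle⟩ := Ideal.exists_le_maximal _ hne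
  have hpP : (p : 𝓞 K) ∈ P := hle (Ideal.mem_span_singleton_self _)
  obtain ⟨O, i₁, i₂, i₃, i₄, i₅, i₆, ι, hpO, hι⟩ := GalRep.exists_coeff_ring p (𝓞 K) P hpP
  refine ⟨O, i₁, i₂, i₃, i₄, i₅, i₆, hpO, ?_, fun j M => ?_⟩
  · have hζ : IsPrimitiveRoot (z ^ (p ^ 2 - 1)) p :=
      hz.pow (Nat.pos_of_neZero m) (by rw [hm, mul_comm])
    refine ⟨ι (z ^ (p ^ 2 - 1)), by rw [← map_pow, hζ.pow_eq_one, map_one], fun h => ?_⟩
    have hs := congrArg ι (hζ.geom_sum_eq_zero hp.one_lt)
    rw [map_sum, map_zero] at hs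
    simp only [map_pow ι (z ^ (p ^ 2 - 1)), h, one_pow] at hs
    simp [hp.ne_zero] at hs
  · have := j.domain_nontrivial
    have : CharP (ResidueField O) p := charP_of_injective_ringHom j.injective p
    have hη : IsPrimitiveRoot (z ^ p) (p ^ 2 - 1) := hz.pow (Nat.pos_of_neZero m) hm
    have hk : ((p ^ 2 - 1 : ℕ) : ResidueField O) ≠ 0 := by
      rw [Ne, CharP.cast_eq_zero_iff (ResidueField O) p]
      intro hd
      have h2 : p ∣ p ^ 2 := dvd_pow_self p two_ne_zero
      have := Nat.dvd_sub h2 hd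
      rw [Nat.sub_sub_self h1.le, Nat.dvd_one] at this
      exact hp.one_lt.ne' this
    have : NeZero ((p ^ 2 - 1 : ℕ) : ResidueField O) := ⟨hk⟩
    have hη' : IsPrimitiveRoot (residue O (ι (z ^ p))) (p ^ 2 - 1) := by
      rw [← Polynomial.isRoot_cyclotomic_iff, ← map_cyclotomic (p ^ 2 - 1) ((residue O).comp ι),
        IsRoot, ← RingHom.comp_apply, eval_map_apply, (hη.isRoot_cyclotomic (by omega)).eq_zero,
        map_zero]
    obtain ⟨α, β, h⟩ := exists_roots_quadratic hη'
      (t := j M.trace) (d := j M.det) (by rw [← map_pow, ZMod.pow_card])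
      (by rw [← map_pow, ZMod.pow_card])
    refine ⟨α, β, ?_⟩
    rw [← h, Matrix.charpoly_map, Matrix.charpoly_fin_two]
    simp

end Fermat.Agent.Root.TateLift
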