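import Fermat.Agent.Root.TateLift.Limit
import Fermat.Agent.FlatModel.Elliptic.Main
import Fermat.Agent.FlatModel.FlatAt

/-!
# The Tate module is flat at a good prime

Every relation between the Galois matrices on `E[p^m]` holds on the finite quotients killed by
`p^m`, so these have flat models.
-/

set_option autoImplicit false

noncomputable section

open IsLocalRing WeierstrassCurve
open scoped WeierstrassCurve.Affine

namespace Fermat.Agent.Root.TateLift

open Fermat.Agent.Deformation Fermat.Agent.FlatModel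

variable {W : WeierstrassCurve ℤ} {p : ℕ} [Fact p.Prime] {O : Type} [CommRing O] [IsLocalRing O]
  [IsNoetherianRing O] [IsAdicComplete (maximalIdeal O) O] [Finite (ResidueField O)]

omit [IsNoetherianRing O] in
/-- **The Tate module is flat at a good `p`.** -/
theorem isFlatAt (hgood : ¬ (p : ℤ) ∣ W.Δ) {R : GQ →* M2 ℤ_[p]} (hR : IsTateMatrix W p R)
    (hp : (p : O) ∈ maximalIdeal O) (M : GQ →* M2 O)
    (hM : ∀ σ, M σ = (R σ).map (GalRep.padicHom p O hp)) (hcont : MatCont M) :
    (ofMatrix M hcont).IsFlatAt p := by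
  classical
  refine ⟨inferInstance, fun I hI => ?_⟩
  obtain ⟨k, hk⟩ := exists_maximalIdeal_pow_le_of_isArtinianRing_quotient I
  obtain ⟨c, hc⟩ := hR (k + 1) (Nat.succ_pos k)
  have := FlatModel.finite_level (ofMatrix M hcont) I
  let X : GalQ →* M2 (ZMod (p ^ (k + 1))) := mapRep (PadicInt.toZModPow (k + 1)) R
  let act : GalQ →* AddMonoid.End (Fin 2 → ZMod (p ^ (k + 1))) :=
    { toFun := fun σ => (X σ).mulVecLin.toAddMonoidHom
      map_one' := AddMonoidHom.ext fun v => by
        show (X 1).mulVec v = v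
        rw [_root_.map_one, Matrix.one_mulVec]
      map_mul' := fun σ τ => AddMonoidHom.ext fun v => by
        show (X (σ * τ)).mulVec v = (X σ).mulVec ((X τ).mulVec v)
        rw [_root_.map_mul, Matrix.mulVec_mulVec] }
  let ι : (Fin 2 → ZMod (p ^ (k + 1))) →+ EP W :=
    (TE W (p ^ (k + 1))).subtype.toAddMonoidHom.comp c.equivFun.symm.toLinearMap.toAddMonoidHom
  have hι : Function.Injective ι :=
    Subtype.val_injective.comp c.equivFun.symm.injective
  have hact : ∀ σ a, ι (act σ a) = σ • ι a := by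
    intro σ a
    obtain ⟨y, rfl⟩ := c.equivFun.surjective a
    show ((c.equivFun.symm ((X σ).mulVec (c.equivFun y)) : TE W (p ^ (k + 1))) : EP W) =
      σ • ((c.equivFun.symm (c.equivFun y) : TE W (p ^ (k + 1))) : EP W)
    rw [show X σ = LinearMap.toMatrix c c (frobEnd W (p ^ (k + 1)) σ) from (hc σ).symm,
      show (LinearMap.toMatrix c c (frobEnd W (p ^ (k + 1)) σ)).mulVec (c.equivFun y) =
        c.equivFun (frobEnd W (p ^ (k + 1)) σ y) from LinearMap.toMatrix_mulVec_repr c c _ y,
      LinearEquiv.symm_apply_apply, LinearEquiv.symm_apply_apply, coe_frobEnd]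
  obtain ⟨MM⟩ := Elliptic.nonempty_model_points hgood act ι hι hact
  let h : ℤ →+* AddMonoid.End (Fin 2 → ZMod (p ^ (k + 1))) := Int.castRingHom _
  let g : ℤ →+* AddMonoid.End ((ofMatrix M hcont).V ⧸
      (I • (⊤ : Submodule O (ofMatrix M hcont).V))) := Int.castRingHom _
  have hrel : ∀ (s : Finset (ℤ × GalQ)) (z : ℤ × GalQ → ℤ),
      ∑ q ∈ s, h (z q) * act q.2 = 0 →
        ∑ q ∈ s, g (z q) * levelEnd (ofMatrix M hcont) I q.2 = 0 := by
    intro s z hz
    set Z : M2 ℤ_[p] := ∑ q ∈ s, z q • R q.2 with hZ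
    have hZ0 : ∀ i j, PadicInt.toZModPow (k + 1) (Z i j) = 0 := by
      intro i j
      have h1 := congrFun (DFunLike.congr_fun hz (Pi.single j 1)) i
      have e : ∀ q : ℤ × GalQ, (h (z q) * act q.2) (Pi.single j (1 : ZMod (p ^ (k + 1)))) i =
          z q • PadicInt.toZModPow (k + 1) (R q.2 i j) := fun q => by
        rw [show h (z q) * act q.2 = z q • act q.2 by
          rw [zsmul_eq_mul]; rfl]
        show z q • (X q.2).mulVec (Pi.single j 1) i = _
        rw [Matrix.mulVec_single_one]
        rfl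
      rw [show (∑ q ∈ s, h (z q) * act q.2) (Pi.single j (1 : ZMod (p ^ (k + 1)))) =
        ∑ q ∈ s, (h (z q) * act q.2) (Pi.single j 1) from AddMonoidHom.finsetSum_apply _ _ _,
        Finset.sum_apply, Finset.sum_congr rfl fun q _ => e q] at h1
      rw [hZ, Matrix.sum_apply, map_sum]
      simp only [Matrix.smul_apply, map_zsmul]
      exact h1
    have hZI : ∀ i j, GalRep.padicHom p O hp (Z i j) ∈ I := fun i j =>
      hk (Ideal.pow_le_pow_right (Nat.le_succ k) (GalRep.padicHom_mem_pow p O hp (hZ0 i j)))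
    have hsum : (∑ q ∈ s, z q • M q.2) = Z.map (GalRep.padicHom p O hp) := by
      rw [hZ, ← RingHom.mapMatrix_apply, map_sum]
      simp only [map_zsmul, RingHom.mapMatrix_apply, hM]
    refine AddMonoidHom.ext fun x => ?_
    obtain ⟨v, rfl⟩ := Submodule.Quotient.mk_surjective _ x
    let f := Submodule.mkQ (I • (⊤ : Submodule O (ofMatrix M hcont).V))
    have e : ∀ q : ℤ × GalQ, (g (z q) * levelEnd (ofMatrix M hcont) I q.2)
        (Submodule.Quotient.mk v) = f (z q • (ofMatrix M hcont).ρ q.2 v) := fun q => by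
      rw [show g (z q) * levelEnd (ofMatrix M hcont) I q.2 =
          z q • levelEnd (ofMatrix M hcont) I q.2 by rw [zsmul_eq_mul]; rfl]
      exact (map_zsmul f _ _).symm
    refine Eq.trans (AddMonoidHom.finsetSum_apply _ _ _)
      (Eq.trans (Finset.sum_congr rfl fun q _ => e q) ?_)
    refine (map_sum f _ s).symm.trans ((Submodule.Quotient.mk_eq_zero _).mpr ?_)
    have key : ∀ w : Fin 2 → O,
        (∑ q ∈ s, z q • (M q.2).mulVec w) ∈ I • (⊤ : Submodule O (Fin 2 → O)) := by
      intro w
      rw [show (∑ q ∈ s, z q • (M q.2).mulVec w) = (∑ q ∈ s, z q • M q.2).mulVec w by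
        rw [Matrix.sum_mulVec]; simp only [Matrix.smul_mulVec], hsum,
        pi_eq_sum_univ ((Z.map (GalRep.padicHom p O hp)).mulVec w)]
      refine Submodule.sum_mem _ fun i _ => Submodule.smul_mem_smul ?_ Submodule.mem_top
      simp only [Matrix.mulVec, dotProduct, Matrix.map_apply]
      exact Ideal.sum_mem _ fun j _ => Ideal.mul_mem_right _ _ (hZI i j)
    exact key v
  obtain ⟨MQ⟩ := nonempty_model_of_relations act (levelEnd (ofMatrix M hcont) I) h g MM
    (fun t σ => Int.cast_commute t _) (fun t σ => Int.cast_commute t _) hrel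
  exact MQ.exists_hopfAlgebra

end Fermat.Agent.Root.TateLift
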