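import Fermat.Agent.Root.TateLift.Good
import Fermat.Agent.GalRep.Coeff
import Fermat.Agent.GalRep.Normalise
import Fermat.Agent.Density.Reps
import Fermat.Agent.Deformation.MatrixRep
import Fermat.Agent.EC.Reduction.Galois

/-!
# The Tate module as matrices over `ℤ_p`

Compatible bases give matrices over `ℤ_p` with cyclotomic determinant and the traces of
Frobenius at good primes.
-/

set_option autoImplicit false

noncomputable section

open WeierstrassCurve WeierstrassCurve.Affine.Point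
open scoped WeierstrassCurve.Affine

namespace Fermat.Agent.Root.TateLift

open Fermat.Agent.Deformation

local notation "ℚbar" => AlgebraicClosure ℚ
local notation "Γ" => AlgebraicClosure ℚ ≃ₐ[ℚ] AlgebraicClosure ℚ

variable {W : WeierstrassCurve ℤ} {p : ℕ} [Fact p.Prime]

/-- `R` gives the matrices of the action on every `E[pⁿ]`. -/
def IsTateMatrix (W : WeierstrassCurve ℤ) (p : ℕ) [Fact p.Prime] (R : GQ →* M2 ℤ_[p]) : Prop :=
  ∀ n : ℕ, 1 ≤ n → ∃ c : Module.Basis (Fin 2) (ZMod (p ^ n)) (TE W (p ^ n)),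
    ∀ σ : Γ, LinearMap.toMatrix c c (frobEnd W (p ^ n) σ) = (R σ).map (PadicInt.toZModPow n)

theorem exists_tateMatrix (hΔ : W.Δ ≠ 0) : ∃ R : GQ →* M2 ℤ_[p], IsTateMatrix W p R := by
  classical
  have hp : p.Prime := Fact.out
  -- a basis at level `p`
  have hfin : ∀ N, N = p → Nonempty (Module.Basis (Fin 2) (ZMod N) (TE W N)) := by
    rintro N rfl
    have hpQ : (N : ℚbar) ≠ 0 := Nat.cast_ne_zero.mpr hp.ne_zero
    have := EC.Torsion.isElliptic_baseChange_map W hΔ ℚbar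
    have := EC.Torsion.moduleFinite_torsionBy (W.map (Int.castRingHom ℚ)) ℚbar (p := N) hpQ
    exact ⟨Module.finBasisOfFinrankEq _ _ (EC.Torsion.finrank_torsionBy _ ℚbar hpQ)⟩
  obtain ⟨c₁⟩ := hfin (p ^ 1) (pow_one p)
  choose L hL using
    fun (n : ℕ) (b : Module.Basis (Fin 2) (ZMod (p ^ (n + 1))) (TE W (p ^ (n + 1)))) =>
    exists_lift hΔ (m := n + 1) (n := n + 1 + 1) (by omega) (Nat.le_succ _) b
  let c : ∀ n, Module.Basis (Fin 2) (ZMod (p ^ (n + 1))) (TE W (p ^ (n + 1))) :=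
    fun n => Nat.rec c₁ L n
  let X : ∀ n, GQ →* M2 (ZMod (p ^ (n + 1))) := fun n =>
    (LinearMap.toMatrixAlgEquiv (c n)).toMulEquiv.toMonoidHom.comp
      (galoisRepModuleEnd (K := ℚbar) ℚ (W.map (Int.castRingHom ℚ)).toAffine (p ^ (n + 1)))
  have hX : ∀ n σ, (X (n + 1) σ).map
      (ZMod.castHom (Nat.pow_dvd_pow p (Nat.le_succ (n + 1))) (ZMod (p ^ (n + 1)))) = X n σ :=
    fun n σ => hL n (c n) σ
  let ρ : ∀ n, GQ →* M2 (ZMod (p ^ n)) := fun n =>
    mapRep (ZMod.castHom (pow_dvd_pow p n.le_succ) (ZMod (p ^ n))) (X n)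
  obtain ⟨R, hR⟩ := GalRep.exists_padic_lift ρ fun n σ => by
    simp only [ρ, mapRep_apply]
    rw [hX n σ]
  refine ⟨R, fun n hn => ?_⟩
  obtain ⟨m, rfl⟩ : ∃ m, n = m + 1 := ⟨n - 1, by omega⟩
  refine ⟨c m, fun σ => ?_⟩
  have h := hR (m + 1) σ
  simp only [ρ, mapRep_apply, RingHom.mapMatrix_apply] at h
  rw [h, hX m σ]
  rfl

variable {R : GQ →* M2 ℤ_[p]}

theorem eq_of_forall_map {x y : M2 ℤ_[p]}
    (h : ∀ n, 1 ≤ n → x.map (PadicInt.toZModPow n) = y.map (PadicInt.toZModPow n)) : x = y := by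
  refine Matrix.ext fun i j => PadicInt.ext_of_toZModPow.mp fun n => ?_
  rcases Nat.eq_zero_or_pos n with rfl | hn
  · have : Subsingleton (ZMod (p ^ 0)) := by rw [pow_zero]; infer_instance
    exact Subsingleton.elim _ _
  · exact congrFun (congrFun (h n hn) i) j

theorem eq_of_forall_toZModPow {x y : ℤ_[p]}
    (h : ∀ n, 1 ≤ n → PadicInt.toZModPow n x = PadicInt.toZModPow n y) : x = y := by
  refine PadicInt.ext_of_toZModPow.mp fun n => ?_
  rcases Nat.eq_zero_or_pos n with rfl | hn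
  · have : Subsingleton (ZMod (p ^ 0)) := by rw [pow_zero]; infer_instance
    exact Subsingleton.elim _ _
  · exact h n hn

theorem toZModPow_det (n : ℕ) (σ : Γ) :
    PadicInt.toZModPow n (R σ).det = ((R σ).map (PadicInt.toZModPow n)).det :=
  RingHom.map_det _ _

theorem finite_level (hΔ : W.Δ ≠ 0) (hR : IsTateMatrix W p R) (n : ℕ) :
    ∃ L : IntermediateField ℚ ℚbar, FiniteDimensional ℚ L ∧
      ∀ σ : Γ, (∀ x ∈ L, σ x = x) → (R σ).map (PadicInt.toZModPow n) = 1 := by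
  rcases Nat.eq_zero_or_pos n with rfl | hn
  · have : Subsingleton (ZMod (p ^ 0)) := by rw [pow_zero]; infer_instance
    exact ⟨⊥, inferInstance, fun σ _ => Subsingleton.elim _ _⟩
  obtain ⟨c, hc⟩ := hR n hn
  obtain ⟨L, hL, h⟩ :=
    EC.Torsion.galoisFactorsThroughFiniteLevel_int W hΔ (n := p ^ n) (NeZero.ne _)
  refine ⟨L, hL, fun σ hσ => ?_⟩
  rw [← hc σ, show frobEnd W (p ^ n) σ = 1 from h σ hσ, LinearMap.toMatrix_one]

theorem good_inertia (hR : IsTateMatrix W p R) {ℓ : ℕ} (hℓ : ℓ.Prime)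
    (hgood : W.IsGoodPrimeFor ℓ) (hℓp : ℓ ≠ p) {A : ValuationSubring ℚbar}
    (hA : A.LiesOverPrime ℓ) {σ : Γ} (hσ : σ ∈ A.inertiaSubgroupIn ℚ) : R σ = 1 := by
  refine eq_of_forall_map fun n hn => ?_
  obtain ⟨c, hc⟩ := hR n hn
  have hℓn : ¬ ℓ ∣ p ^ n := fun hd =>
    hℓp ((Nat.prime_dvd_prime_iff_eq hℓ Fact.out).mp (hℓ.dvd_of_dvd_pow hd))
  have h1 : frobEnd W (p ^ n) σ = 1 :=
    LinearMap.ext fun x => EC.Reduction.galoisRepUnramifiedAt_intModel hℓ hgood hℓn A hA σ hσ x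
  rw [← hc σ, h1, LinearMap.toMatrix_one, Matrix.map_one _ (_root_.map_zero _) (_root_.map_one _)]

theorem good_frobenius (hR : IsTateMatrix W p R) {ℓ : ℕ} (hℓ : ℓ.Prime)
    (hgood : W.IsGoodPrimeFor ℓ) (hℓp : ℓ ≠ p) {A : ValuationSubring ℚbar}
    (hA : A.LiesOverPrime ℓ) {σ : Γ} (hσ : A.IsFrobeniusAt σ ℓ) :
    (R σ).trace = (W.apOfModel ℓ : ℤ_[p]) ∧ (R σ).det = (ℓ : ℤ_[p]) := by
  refine ⟨eq_of_forall_toZModPow fun n hn => ?_, eq_of_forall_toZModPow fun n hn => ?_⟩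
  · obtain ⟨c, hc⟩ := hR n hn
    have h := (trace_det_frobEnd hℓ hgood hℓp hA hσ hn c).1
    rw [hc σ] at h
    rw [map_intCast, ← h]
    exact AddMonoidHom.map_trace (PadicInt.toZModPow n).toAddMonoidHom (R σ)
  · obtain ⟨c, hc⟩ := hR n hn
    have h := (trace_det_frobEnd hℓ hgood hℓp hA hσ hn c).2
    rw [hc σ] at h
    rw [map_natCast, ← h, toZModPow_det]

/-- The determinant is the cyclotomic character. -/
theorem det_eq_cycl (hΔ : W.Δ ≠ 0) (hR : IsTateMatrix W p R) (σ : Γ) :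
    (R σ).det = GalRep.cycl p σ := by
  refine eq_of_forall_toZModPow fun n _ => ?_
  let χ₁ : Γ →* ZMod (p ^ n) :=
    (PadicInt.toZModPow n).toMonoidHom.comp (Matrix.detMonoidHom.comp R)
  let χ₂ : Γ →* ZMod (p ^ n) := (PadicInt.toZModPow n).toMonoidHom.comp (GalRep.cycl p)
  have key : χ₁ = χ₂ := by
    obtain ⟨L, hL, hL'⟩ := finite_level hΔ hR n
    have h1 : GaloisFactorsThroughFiniteLevel χ₁ := ⟨L, hL, fun τ hτ => by
      show PadicInt.toZModPow n (R τ).det = 1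
      rw [toZModPow_det, hL' τ hτ, Matrix.det_one]⟩
    refine Density.monoidHom_eq_of_forall_frobenius h1 (GalRep.cycl_finiteLevel p n)
      ({p} ∪ {q | (q : ℤ) ∣ W.Δ}) ((Set.finite_singleton p).union ?_)
      fun q hq hqS A hA τ hτ => ?_
    · refine (Set.finite_Iic W.Δ.natAbs).subset fun q hq => ?_
      exact Nat.le_of_dvd (Int.natAbs_pos.mpr hΔ) (Int.natCast_dvd.mp hq)
    simp only [Set.mem_union, Set.mem_singleton_iff, Set.mem_ofPred_eq, not_or] at hqS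
    show PadicInt.toZModPow n (R τ).det = PadicInt.toZModPow n (GalRep.cycl p τ)
    rw [(good_frobenius hR hq hqS.2 hqS.1 hA hτ).2, GalRep.cycl_frobenius p hq hqS.1 hA hτ]
  exact DFunLike.congr_fun key σ

theorem det_cyclotomic (hΔ : W.Δ ≠ 0) (hR : IsTateMatrix W p R) (n : ℕ) (σ : Γ) (a : ℕ)
    (h : ∀ μ : ℚbar, μ ^ p ^ n = 1 → σ μ = μ ^ a) :
    PadicInt.toZModPow n (R σ).det = (a : ZMod (p ^ n)) := by
  rw [det_eq_cycl hΔ hR σ]
  exact GalRep.toZModPow_cycl p σ n a h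

/-- The residual representation in a basis of `E[p]`. -/
theorem exists_residual_basis (hR : IsTateMatrix W p R) :
    ∃ (f : ℤ_[p] →+* ZMod p) (b : Module.Basis (Fin 2) (ZMod p) (TE W p)),
      (∀ x, f x = ZMod.castHom (pow_one p).symm.dvd (ZMod p) (PadicInt.toZModPow 1 x)) ∧
      ∀ σ : Γ, LinearMap.toMatrix b b (frobEnd W p σ) = (R σ).map f := by
  obtain ⟨c, hc⟩ := hR 1 le_rfl
  suffices ∀ N (hN : N = p) (g : ℤ_[p] →+* ZMod N)
      (d : Module.Basis (Fin 2) (ZMod N) (TE W N)),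
      (∀ σ : Γ, LinearMap.toMatrix d d (frobEnd W N σ) = (R σ).map g) →
      ∃ (f : ℤ_[p] →+* ZMod p) (b : Module.Basis (Fin 2) (ZMod p) (TE W p)),
        (∀ x, f x = ZMod.castHom hN.symm.dvd (ZMod p) (g x)) ∧
        ∀ σ : Γ, LinearMap.toMatrix b b (frobEnd W p σ) = (R σ).map f from
    this _ (pow_one p) _ c hc
  rintro N rfl g d hd
  exact ⟨g, d, fun x => by rw [ZMod.castHom_self, RingHom.id_apply], hd⟩

end Fermat.Agent.Root.TateLift
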