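import Fermat.Agent.Root.TateLift.Bad
import Fermat.Agent.Root.TateLift.Flat
import Fermat.Agent.Root.TateLift.CoeffRing
import Fermat.Agent.Root.Patched.Standard

/-!
# The residual data of a semistable curve

For odd `p` the Tate module gives `ResidualData` for a semistable curve
(`exists_residualData_tate`).
-/

set_option autoImplicit false

noncomputable section

open IsLocalRing Polynomial WeierstrassCurve WeierstrassCurve.Affine.Point
open scoped WeierstrassCurve.Affine

namespace Fermat.Agent.Root.TateLift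

open Fermat.Agent.Deformation Fermat.Agent.Root.Patched

local notation "ℚbar" => AlgebraicClosure ℚ

variable {p : ℕ} [Fact p.Prime]

/-- Ring maps from `ℤ_p` to a field of characteristic `p` agree. -/
theorem padic_hom_ext {k : Type} [Field k] [CharP k p] (f g : ℤ_[p] →+* k) : f = g := by
  refine RingHom.ext fun x => ?_
  have hx : x - ((PadicInt.toZMod x).val : ℤ_[p]) ∈ maximalIdeal ℤ_[p] := by
    rw [← PadicInt.ker_toZMod, RingHom.mem_ker, map_sub, map_natCast, ZMod.natCast_zmod_val,
      sub_self]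
  rw [PadicInt.maximalIdeal_eq_span_p, Ideal.mem_span_singleton] at hx
  obtain ⟨c, hc⟩ := hx
  rw [sub_eq_iff_eq_add] at hc
  rw [hc, map_add, map_add, map_mul, map_mul, map_natCast, map_natCast, map_natCast, map_natCast,
    CharP.cast_eq_zero k p, zero_mul, zero_mul]

/-- **The residual data of a semistable curve at an odd prime.** -/
theorem exists_residualData_tate (W : WeierstrassCurve ℤ) (hW : Semistable W) (hp2 : p ≠ 2) :
    ∃ (O : Type) (_ : CommRing O) (_ : IsDomain O) (_ : IsDiscreteValuationRing O)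
      (_ : IsAdicComplete (maximalIdeal O) O) (_ : Finite (ResidueField O)) (_ : CharZero O),
      Nonempty (ResidualData O p W) := by
  classical
  obtain ⟨O, i₁, i₂, i₃, i₄, i₅, i₆, hpO, ⟨ζ, hζ, hζ1⟩, hsplit⟩ := exists_coeffRing p
  refine ⟨O, i₁, i₂, i₃, i₄, i₅, i₆, ?_⟩
  have hΔ := hW.ne
  obtain ⟨R, hR⟩ := exists_tateMatrix (p := p) hΔ
  obtain ⟨f, b, hf, hb⟩ := exists_residual_basis hR
  have : CharP (ResidueField O) p := by
    rw [CharP.charP_iff_prime_eq_zero Fact.out, ← map_natCast (residue O), residue_eq_zero_iff]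
    exact hpO
  let φ : ℤ_[p] →+* O := GalRep.padicHom p O hpO
  let ι : ZMod p →+* ResidueField O := ZMod.castHom (dvd_refl p) _
  have hcomp : (residue O).comp φ = ι.comp f := padic_hom_ext _ _
  let ρ₀ : GQ →* GL (Fin 2) (ZMod p) := (mapRep f R).toHomUnits
  let ρbar : GQ →* M2 (ResidueField O) := mapRep ι (mapRep f R)
  let M : GQ →* M2 O := mapRep φ R
  have hlevel : ∀ n, ∃ L : IntermediateField ℚ ℚbar, FiniteDimensional ℚ L ∧
      ∀ σ : GQ, (∀ x ∈ L, σ x = x) → (R σ).map (PadicInt.toZModPow n) = 1 := finite_level hΔ hR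
  have hcont : MatCont M := by
    intro n
    obtain ⟨L, hL, hL'⟩ := hlevel n
    refine ⟨L, hL, fun σ hσ i j => ?_⟩
    have h0 : PadicInt.toZModPow n ((R σ - 1) i j) = 0 := by
      rw [Matrix.sub_apply, map_sub, sub_eq_zero]
      rw [show PadicInt.toZModPow n (R σ i j) = (R σ).map (PadicInt.toZModPow n) i j from rfl,
        hL' σ hσ, ← Matrix.map_one (PadicInt.toZModPow n) (_root_.map_zero _) (_root_.map_one _)]
      rfl
    have h1 := GalRep.padicHom_mem_pow p O hpO h0
    rw [Matrix.sub_apply, map_sub] at h1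
    rw [← Matrix.map_one φ (_root_.map_zero _) (_root_.map_one _)]
    exact h1
  let point : Lift ρbar (TestRing.self O) :=
    { M := M
      cont := hcont
      reduces := fun σ => by
        show ((R σ).map φ).map (residue O) = ((R σ).map f).map ι
        rw [Matrix.map_map, Matrix.map_map, ← RingHom.coe_comp, ← RingHom.coe_comp, hcomp] }
  refine ⟨{
    p_mem := hpO
    ρ₀ := ρ₀
    finite_level := ?_
    basis := b
    ρ₀_eq := fun σ => (hb σ).symm
    det₀ := fun σ a ha => ?_
    ι := ι
    ρbar := ρbar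
    ρbar_eq := fun σ => rfl
    split := fun σ => hsplit ι ((R σ).map f)
    ζ := ζ
    ζ_pow := hζ
    ζ_ne := hζ1
    point := point
    point_det := fun n σ a ha => ?_
    point_good := fun q hq hgood hqp A hA => ⟨fun σ hσ => ?_, fun σ hσ => ?_⟩
    point_bad := fun q hq hqΔ A hA => ?_
    point_flat := fun hgood => ?_ }⟩
  · obtain ⟨L, hL, hL'⟩ := hlevel 1
    refine ⟨L, hL, fun σ hσ => Units.ext ?_⟩
    show (R σ).map f = 1
    have h := hL' σ hσ
    refine Matrix.ext fun i j => ?_
    rw [Matrix.map_apply, hf,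
      show PadicInt.toZModPow 1 (R σ i j) = (R σ).map (PadicInt.toZModPow 1) i j from rfl, h,
      Matrix.one_apply, Matrix.one_apply]
    split_ifs <;> simp
  · show ((R σ).map f).det = (a : ZMod p)
    have h := det_cyclotomic hΔ hR 1 σ a (by rwa [pow_one])
    rw [← RingHom.mapMatrix_apply, ← RingHom.map_det, hf, h, map_natCast]
  · show ((R σ).map φ).det - (a : O) ∈ Ideal.span {((p ^ n : ℕ) : O)}
    have h : (R σ).det - (a : ℤ_[p]) ∈ RingHom.ker (PadicInt.toZModPow (p := p) n) := by
      rw [RingHom.mem_ker, map_sub, map_natCast, det_cyclotomic hΔ hR n σ a ha, sub_self]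
    rw [PadicInt.ker_toZModPow, Ideal.mem_span_singleton] at h
    rw [← RingHom.mapMatrix_apply, ← RingHom.map_det, ← map_natCast φ a, ← map_sub,
      Ideal.mem_span_singleton]
    have h' := map_dvd φ h
    rwa [map_pow, map_natCast, ← Nat.cast_pow] at h'
  · show (R σ).map φ = 1
    rw [good_inertia hR hq hgood hqp hA hσ]
    exact Matrix.map_one _ (_root_.map_zero _) (_root_.map_one _)
  · show ((R σ).map φ).charpoly = _
    obtain ⟨ht, hd⟩ := good_frobenius hR hq hgood hqp hA hσ
    rw [Matrix.charpoly_map, Matrix.charpoly_fin_two, ht, hd]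
    simp only [Polynomial.map_add, Polynomial.map_sub, Polynomial.map_mul, Polynomial.map_pow,
      Polynomial.map_X, Polynomial.map_intCast, Polynomial.map_natCast, map_intCast,
      map_natCast]
    rfl
  · obtain ⟨μ, hsq, hin, hrel⟩ := exists_steinberg hΔ hW.ss hp2 hR hq hqΔ hA
    refine ⟨φ.toMonoidHom.comp μ, ⟨fun g hg => ?_, fun g h => ?_⟩, fun g => ?_⟩
    · show φ (μ g) = 1
      rw [hin g hg, _root_.map_one]
    · show ((R g).map φ - (((R g).map φ).det * φ (μ g⁻¹)) • (1 : M2 O)) *
        ((R h).map φ - φ (μ h) • (1 : M2 O)) = 0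
      have hsc : ∀ x : ℤ_[p], φ.mapMatrix (x • (1 : M2 ℤ_[p])) = φ x • (1 : M2 O) := fun x => by
        rw [RingHom.mapMatrix_apply, Matrix.map_smul' _ _ _ (map_mul _),
          Matrix.map_one _ (_root_.map_zero _) (_root_.map_one _)]
      rw [← RingHom.mapMatrix_apply, ← RingHom.mapMatrix_apply, ← RingHom.map_det, ← map_mul,
        ← hsc, ← hsc, ← map_sub, ← map_sub, ← map_mul, hrel, _root_.map_zero]
    · show φ (μ g) * φ (μ g) = 1
      rw [← map_mul, hsq, _root_.map_one]
  · exact isFlatAt hgood hR hpO M (fun σ => rfl) hcont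

end Fermat.Agent.Root.TateLift
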